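import Mathlib
import Fermat.Agent.S18.T.Defs
import Fermat.Agent.S18.T.Saturated
import Fermat.Agent.S18.T.LocalGood
import Fermat.Agent.S18.T.TameTrace

/-!
# S18, package C (row 402): the abstract Kummer step

Setting of package T (`A` a DVR with uniformiser `ϖ`, `L = Frac A`, `F ∋ t`), plus a finite
extension `F' / F`.  `P_(ϖ) = s18tIntLoc A t (C ϖ) hC ⊆ F`, `P'_(ϖ) ⊆ F'` the same for the
coordinate `t' = algebraMap F F' t`.

* `s18ck_exists_powerBasis`, `s18ck_trace_pow`, `s18ck_trace_mul_pow`: a Kummer generator `y`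
  (`y ^ p = f`, `f` not a `p`-th power, `p` prime) gives the power basis `1, y, …, y^(p-1)`;
  `Tr(y^n) = p f^(n/p)` if `p ∣ n`, `0` otherwise; coordinates through traces;
* `s18ck_map_mem_intLoc`, `s18ck_trace_mem_intLoc`, `s18ck_mem_loc_of_map`, `s18ck_trace_tower`,
  `s18ck_finiteDimensional`, `s18ck_transcendental`: ascent / descent between `F` and `F'`;
* `s18ck_selfDual`: self-duality above `ϖ` ascends;
* `s18ck_idempotent`: `ε = p⁻¹ (1 + y + … + y^(p-1))` is an idempotent modulo `ϖ`, and neither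
  `ε` nor `1 - ε` is `≡ 0`;
* `s18ck_kummer`: the package.
-/

set_option autoImplicit false
set_option linter.unusedSectionVars false
set_option linter.style.haveILetI false

noncomputable section

namespace Fermat.Agent.S18

open Polynomial IntermediateField

universe u

variable {A : Type*} [CommRing A] [IsDomain A] [IsDiscreteValuationRing A] [CharZero A]
variable {L : Type*} [Field L] [Algebra A L] [IsFractionRing A L]
variable {F : Type u} [Field F] [Algebra A F] [Algebra L F] [IsScalarTower A L F]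
variable {ϖ : A}

section PowerBasis

variable {K : Type*} [Field K] {E : Type*} [Field E] [Algebra K E]

/-- a Kummer generator gives a power basis -/
theorem s18ck_exists_powerBasis (p : ℕ) (hp : p.Prime) (f : K) (y : E)
    (hy : y ^ p = algebraMap K E f) (hroot : ∀ b : K, b ^ p ≠ f) (hgen : K⟮y⟯ = ⊤) :
    ∃ pb : PowerBasis K E, pb.gen = y ∧ pb.dim = p := by
  have hirr : Irreducible (X ^ p - C f : K[X]) := X_pow_sub_C_irreducible_of_prime hp hroot
  have hmonic : (X ^ p - C f : K[X]).Monic := monic_X_pow_sub_C f hp.ne_zero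
  have hev : aeval y (X ^ p - C f : K[X]) = 0 := by
    rw [map_sub, map_pow, aeval_X, aeval_C, hy, sub_self]
  have hint : IsIntegral K y := ⟨_, hmonic, by rwa [← aeval_def]⟩
  have hmin : minpoly K y = X ^ p - C f :=
    (minpoly.eq_of_irreducible_of_monic hirr hev hmonic).symm
  have hadj : Algebra.adjoin K {y} = ⊤ := by
    rw [← IntermediateField.adjoin_simple_toSubalgebra_of_isAlgebraic hint.isAlgebraic, hgen,
      IntermediateField.top_toSubalgebra]
  refine ⟨PowerBasis.ofAdjoinEqTop' hint hadj, PowerBasis.ofAdjoinEqTop'_gen hint hadj, ?_⟩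
  rw [PowerBasis.ofAdjoinEqTop'_dim, hmin, natDegree_X_pow_sub_C]

/-- the trace of a power of a Kummer generator -/
theorem s18ck_trace_pow_aux (pb : PowerBasis K E) (f : K)
    (hy : pb.gen ^ pb.dim = algebraMap K E f) (n : ℕ) :
    Algebra.trace K E (pb.gen ^ n) =
      if pb.dim ∣ n then (pb.dim : K) * f ^ (n / pb.dim) else 0 := by
  classical
  have hp0 : 0 < pb.dim := pb.dim_pos
  -- the powers of `gen`
  have hpow : ∀ m : ℕ, pb.gen ^ m = f ^ (m / pb.dim) • pb.gen ^ (m % pb.dim) := by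
    intro m
    conv_lhs => rw [← Nat.div_add_mod m pb.dim]
    rw [pow_add, pow_mul, hy, ← map_pow, Algebra.smul_def]
  rw [Algebra.trace_eq_matrix_trace pb.basis, Matrix.trace]
  have hentry : ∀ i : Fin pb.dim, Algebra.leftMulMatrix pb.basis (pb.gen ^ n) i i =
      if pb.dim ∣ n then f ^ (n / pb.dim) else 0 := by
    intro i
    have hi : (i : ℕ) < pb.dim := i.2
    rw [Algebra.leftMulMatrix_eq_repr_mul, PowerBasis.basis_eq_pow, ← pow_add, hpow (n + i)]
    have hlt : (n + i) % pb.dim < pb.dim := Nat.mod_lt _ hp0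
    have h1 : pb.gen ^ ((n + i) % pb.dim) = pb.basis ⟨(n + i) % pb.dim, hlt⟩ := by
      rw [PowerBasis.basis_eq_pow]
    rw [h1, map_smul, Module.Basis.repr_self, Finsupp.smul_apply, Finsupp.single_apply,
      smul_eq_mul]
    by_cases hpn : pb.dim ∣ n
    · have h2 : (n + i) % pb.dim = i := by
        obtain ⟨c, hc⟩ := hpn
        rw [hc, Nat.mul_add_mod, Nat.mod_eq_of_lt hi]
      have h3 : (n + i) / pb.dim = n / pb.dim := by
        obtain ⟨c, hc⟩ := hpn
        rw [hc, Nat.mul_add_div hp0, Nat.div_eq_of_lt hi, add_zero, Nat.mul_div_cancel_left _ hp0]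
      rw [if_pos (Fin.ext h2), if_pos hpn, h3, mul_one]
    · have h2 : (n + i) % pb.dim ≠ i := by
        intro h
        apply hpn
        have h4 : (n + i) % pb.dim = i % pb.dim := by rw [h, Nat.mod_eq_of_lt hi]
        have h5 : n + i ≡ 0 + i [MOD pb.dim] := by rw [zero_add]; exact h4
        exact (Nat.modEq_zero_iff_dvd).mp (Nat.ModEq.add_right_cancel' _ h5)
      rw [if_neg (fun h => h2 (Fin.ext_iff.mp h)), if_neg hpn, mul_zero]
  simp only [Matrix.diag_apply]
  rw [Finset.sum_congr rfl (fun i _ => hentry i)]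
  rw [Finset.sum_const, Finset.card_univ, Fintype.card_fin, nsmul_eq_mul]
  split_ifs <;> simp

theorem s18ck_trace_pow (pb : PowerBasis K E) (p : ℕ) (hdim : pb.dim = p) (f : K)
    (hy : pb.gen ^ p = algebraMap K E f) (n : ℕ) :
    Algebra.trace K E (pb.gen ^ n) = if p ∣ n then (p : K) * f ^ (n / p) else 0 := by
  subst hdim
  exact s18ck_trace_pow_aux pb f hy n

/-- coordinates w.r.t. the power basis through traces -/
theorem s18ck_trace_mul_pow (pb : PowerBasis K E) (p : ℕ) (hdim : pb.dim = p) (f : K)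
    (hy : pb.gen ^ p = algebraMap K E f) (x : E) (j : Fin pb.dim) :
    Algebra.trace K E (x * pb.gen ^ ((p - j) % p)) =
      (p : K) * f ^ (if (j : ℕ) = 0 then 0 else 1) * pb.basis.repr x j := by
  classical
  have hp0 : 0 < p := hdim ▸ pb.dim_pos
  have hj : (j : ℕ) < p := hdim ▸ j.2
  set k : ℕ := (p - j) % p with hk
  have hx : x = ∑ i, pb.basis.repr x i • pb.gen ^ (i : ℕ) := by
    conv_lhs => rw [← pb.basis.sum_repr x]
    exact Finset.sum_congr rfl fun i _ => by rw [PowerBasis.basis_eq_pow]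
  have h1 : x * pb.gen ^ k = ∑ i, pb.basis.repr x i • pb.gen ^ ((i : ℕ) + k) := by
    conv_lhs => rw [hx]
    rw [Finset.sum_mul]
    exact Finset.sum_congr rfl fun i _ => by rw [smul_mul_assoc, pow_add]
  rw [h1, map_sum]
  have h2 : ∀ i : Fin pb.dim, Algebra.trace K E (pb.basis.repr x i • pb.gen ^ ((i : ℕ) + k)) =
      pb.basis.repr x i * if p ∣ (i : ℕ) + k then (p : K) * f ^ (((i : ℕ) + k) / p) else 0 := by
    intro i
    rw [map_smul, smul_eq_mul, s18ck_trace_pow pb p hdim f hy]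
  rw [Finset.sum_congr rfl (fun i _ => h2 i)]
  have hkj : k = if (j : ℕ) = 0 then 0 else p - j := by
    rw [hk]
    split_ifs with h0
    · rw [h0, Nat.sub_zero, Nat.mod_self]
    · exact Nat.mod_eq_of_lt (by omega)
  rw [Finset.sum_eq_single j]
  · have hdvd : p ∣ (j : ℕ) + k := by
      rw [hkj]
      split_ifs with h0
      · rw [h0]; exact dvd_zero p
      · rw [show (j : ℕ) + (p - j) = p by omega]
    have hdiv : ((j : ℕ) + k) / p = if (j : ℕ) = 0 then 0 else 1 := by
      rw [hkj]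
      split_ifs with h0
      · rw [h0]; simp
      · rw [show (j : ℕ) + (p - j) = p by omega, Nat.div_self hp0]
    rw [if_pos hdvd, hdiv]
    ring
  · intro i _ hij
    have hi : (i : ℕ) < p := hdim ▸ i.2
    have hndvd : ¬ p ∣ (i : ℕ) + k := by
      rintro ⟨c, hc⟩
      apply hij
      apply Fin.ext
      have hklt : k < p := Nat.mod_lt _ hp0
      rcases c with _ | _ | c
      · rw [hkj] at hc
        split_ifs at hc with h0 <;> omega
      · rw [hkj] at hc
        split_ifs at hc with h0 <;> omega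
      · have : 2 * p ≤ p * (c + 1 + 1) := by nlinarith
        omega
    rw [if_neg hndvd, mul_zero]
  · intro h
    exact absurd (Finset.mem_univ j) h

end PowerBasis

section Geometric

variable (F' : Type u) [Field F'] [Algebra F F'] [Algebra A F'] [Algebra L F']
  [IsScalarTower A F F'] [IsScalarTower L F F'] [IsScalarTower A L F']

theorem s18ck_pow_one_eq (t : F) :
    (algebraMap F F' t) ^ 1 = algebraMap F F' (t - algebraMap A F 0) := by
  rw [pow_one, map_zero, sub_zero]

/-- ascent: `P_(ϖ) ⊆ P'_(ϖ)` for the same coordinate. -/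
theorem s18ck_map_mem_intLoc (hC : Prime (C ϖ : A[X])) (t : F) (x : F)
    (hx : x ∈ s18tIntLoc A t (C ϖ) hC) :
    algebraMap F F' x ∈ s18tIntLoc A (algebraMap F F' t) (C ϖ) hC :=
  s18tg_map_mem_intLoc F' hC t 0 1 one_ne_zero (algebraMap F F' t) (s18ck_pow_one_eq F' t) x hx

/-- descent of the trace: `Tr_{F'/F}(P'_(ϖ)) ⊆ P_(ϖ)`. -/
theorem s18ck_trace_mem_intLoc (hC : Prime (C ϖ : A[X])) (t : F) (ht : Transcendental L t)
    [FiniteDimensional F F'] (y : F') (hy : y ∈ s18tIntLoc A (algebraMap F F' t) (C ϖ) hC) :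
    Algebra.trace F F' y ∈ s18tIntLoc A t (C ϖ) hC :=
  s18tg_trace_mem_intLoc F' hC t ht 0 1 one_ne_zero ⟨1, IsPrimitiveRoot.one⟩
    (algebraMap F F' t) (s18ck_pow_one_eq F' t) y hy

/-- membership in the Gauss ring of `L(t)` descends. -/
theorem s18ck_mem_loc_of_map (hC : Prime (C ϖ : A[X])) (t : F) (x : F)
    (hx : algebraMap F F' x ∈ s18tLoc A (algebraMap F F' t) (C ϖ) hC) :
    x ∈ s18tLoc A t (C ϖ) hC := by
  obtain ⟨a, b, hb, hab⟩ := hx
  refine ⟨a, b, hb, ?_⟩
  rw [aeval_algebraMap_apply, aeval_algebraMap_apply, ← map_mul] at hab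
  exact (algebraMap F F').injective hab

theorem s18ck_transcendental (t : F) (ht : Transcendental L t) :
    Transcendental L (algebraMap F F' t) :=
  (transcendental_algebraMap_iff (algebraMap F F').injective).mpr ht

/-- the identification `L(t) ≃ L(t')`. -/
def s18ckEquiv (t : F) : ↥L⟮t⟯ ≃ₐ[L] ↥L⟮algebraMap F F' t⟯ :=
  (IntermediateField.equivMap L⟮t⟯ (IsScalarTower.toAlgHom L F F')).trans
    (IntermediateField.equivOfEq (by
      rw [IntermediateField.adjoin_map, Set.image_singleton]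
      rfl))

theorem s18ckEquiv_comp (t : F) :
    (algebraMap ↥L⟮algebraMap F F' t⟯ F').comp
      ((s18ckEquiv (L := L) F' t : ↥L⟮t⟯ ≃ₐ[L] ↥L⟮algebraMap F F' t⟯) :
        ↥L⟮t⟯ →+* ↥L⟮algebraMap F F' t⟯) = algebraMap ↥L⟮t⟯ F' := by
  ext x
  rfl

theorem s18ck_finiteDimensional (t : F) [FiniteDimensional L⟮t⟯ F] [FiniteDimensional F F'] :
    FiniteDimensional L⟮algebraMap F F' t⟯ F' := by
  haveI : Module.Finite ↥L⟮t⟯ F' := Module.Finite.trans F F'
  exact Module.Finite.of_equiv_equiv (s18ckEquiv (L := L) F' t).toRingEquiv (RingEquiv.refl F')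
    (by rw [← s18ckEquiv_comp (L := L) F' t]; rfl)

/-- transitivity of the trace through `F`, with the base fields `L(t) ⊆ F` and `L(t) ⊆ F'`
identified. -/
theorem s18ck_trace_tower (t : F) [FiniteDimensional L⟮t⟯ F] [FiniteDimensional F F'] (u : F') :
    ((Algebra.trace L⟮algebraMap F F' t⟯ F' u : L⟮algebraMap F F' t⟯) : F') =
      algebraMap F F' ((Algebra.trace L⟮t⟯ F (Algebra.trace F F' u) : L⟮t⟯) : F) := by
  have h1 := Algebra.trace_eq_of_ringEquiv (C := F') (s18ckEquiv (L := L) F' t).toRingEquiv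
    (s18ckEquiv_comp (L := L) F' t) u
  have h2 : Algebra.trace ↥L⟮t⟯ F (Algebra.trace F F' u) = Algebra.trace ↥L⟮t⟯ F' u :=
    Algebra.trace_trace (S := F) u
  rw [h2, ← h1]
  rfl

/-- the Kummer generator is integral. -/
theorem s18ck_gen_mem (hC : Prime (C ϖ : A[X])) (t : F) (p : ℕ) (hp0 : 0 < p) (f : F)
    (hf : f ∈ s18tIntLoc A t (C ϖ) hC) (y : F') (hy : y ^ p = algebraMap F F' f) :
    y ∈ s18tIntLoc A (algebraMap F F' t) (C ϖ) hC := by
  rw [mem_s18tIntLoc]
  refine IsIntegral.of_pow hp0 ?_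
  rw [hy]
  exact s18ck_map_mem_intLoc F' hC t f hf

/-- (d) self-duality ascends along a Kummer extension of degree prime to the residue
characteristic with unit radicand. -/
theorem s18ck_selfDual (hC : Prime (C ϖ : A[X])) (t : F)
    [FiniteDimensional L⟮t⟯ F] [FiniteDimensional F F']
    (hG : S18SelfDual A L t (C ϖ) hC)
    (p : ℕ) (u : A) (hpu : (p : A) * u = 1)
    (f : F) (hf0 : f ≠ 0) (hf : f ∈ s18tIntLoc A t (C ϖ) hC)
    (hf' : f⁻¹ ∈ s18tIntLoc A t (C ϖ) hC)
    (pb : PowerBasis F F') (hdim : pb.dim = p) (hy : pb.gen ^ p = algebraMap F F' f) :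
    S18SelfDual A L (algebraMap F F' t) (C ϖ) hC := by
  intro x hx
  have hp0 : 0 < p := hdim ▸ pb.dim_pos
  have hgen : pb.gen ∈ s18tIntLoc A (algebraMap F F' t) (C ϖ) hC :=
    s18ck_gen_mem F' hC t p hp0 f hf pb.gen hy
  have hpuF : (p : F) * algebraMap A F u = 1 := by
    rw [← map_natCast (algebraMap A F), ← map_mul, hpu, map_one]
  have huB : algebraMap A F u ∈ s18tIntLoc A t (C ϖ) hC := by
    have := s18tlg_int_le_intLoc t (C ϖ) hC (s18tlg_aeval_mem_int t (C u : A[X]))
    rwa [aeval_C] at this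
  have hcoord : ∀ j : Fin pb.dim, pb.basis.repr x j ∈ s18tIntLoc A t (C ϖ) hC := by
    intro j
    have hm : Algebra.trace F F' (x * pb.gen ^ ((p - j) % p)) ∈ s18tIntLoc A t (C ϖ) hC := by
      apply hG
      intro z hz
      apply s18ck_mem_loc_of_map F' hC t
      have h1 := hx (pb.gen ^ ((p - j) % p) * algebraMap F F' z)
        (Subring.mul_mem _ (Subring.pow_mem _ hgen _) (s18ck_map_mem_intLoc F' hC t z hz))
      rw [s18ck_trace_tower] at h1
      have h3 : Algebra.trace F F' (x * (pb.gen ^ ((p - j) % p) * algebraMap F F' z)) =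
          Algebra.trace F F' (x * pb.gen ^ ((p - j) % p)) * z := by
        rw [← mul_assoc, mul_comm _ (algebraMap F F' z), ← Algebra.smul_def, map_smul,
          smul_eq_mul, mul_comm]
      rwa [h3] at h1
    rw [s18ck_trace_mul_pow pb p hdim f hy x j] at hm
    have h4 : pb.basis.repr x j = algebraMap A F u * f⁻¹ ^ (if (j : ℕ) = 0 then 0 else 1) *
        ((p : F) * f ^ (if (j : ℕ) = 0 then 0 else 1) * pb.basis.repr x j) := by
      have h5 : f⁻¹ ^ (if (j : ℕ) = 0 then 0 else 1) * f ^ (if (j : ℕ) = 0 then 0 else 1) = 1 := by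
        rw [← mul_pow, inv_mul_cancel₀ hf0, one_pow]
      calc pb.basis.repr x j = ((p : F) * algebraMap A F u) *
            (f⁻¹ ^ (if (j : ℕ) = 0 then 0 else 1) * f ^ (if (j : ℕ) = 0 then 0 else 1)) *
            pb.basis.repr x j := by rw [hpuF, h5, one_mul, one_mul]
        _ = _ := by ring
    rw [h4]
    exact Subring.mul_mem _ (Subring.mul_mem _ huB (Subring.pow_mem _ hf' _)) hm
  rw [← pb.basis.sum_repr x]
  refine Subring.sum_mem _ fun j _ => ?_
  rw [Algebra.smul_def, PowerBasis.basis_eq_pow]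
  exact Subring.mul_mem _ (s18ck_map_mem_intLoc F' hC t _ (hcoord j)) (Subring.pow_mem _ hgen _)

/-- constants are integral. -/
theorem s18ck_const_mem (hC : Prime (C ϖ : A[X])) (t : F) (a : A) :
    algebraMap A F a ∈ s18tIntLoc A t (C ϖ) hC := by
  have := s18tlg_int_le_intLoc t (C ϖ) hC (s18tlg_aeval_mem_int t (C a : A[X]))
  rwa [aeval_C] at this

theorem s18ck_trace_const_mul (a : A) [FiniteDimensional F F'] (n : F') :
    Algebra.trace F F' (algebraMap A F' a * n) = algebraMap A F a * Algebra.trace F F' n := by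
  rw [IsScalarTower.algebraMap_apply A F F', ← Algebra.smul_def, map_smul, smul_eq_mul]

/-- (e) the averaging element of a Kummer extension with radicand `≡ 1 mod ϖ` is a nontrivial
idempotent modulo `ϖ`. -/
theorem s18ck_idempotent (hC : Prime (C ϖ : A[X])) (t : F) (ht : Transcendental L t)
    [FiniteDimensional F F']
    (p : ℕ) (hp2 : 2 ≤ p) (u : A) (hpu : (p : A) * u = 1)
    (f : F) (hf0 : f ≠ 0) (hf : f ∈ s18tIntLoc A t (C ϖ) hC)
    (hf' : f⁻¹ ∈ s18tIntLoc A t (C ϖ) hC)
    (g : F) (hg : g ∈ s18tIntLoc A t (C ϖ) hC) (hfg : f - 1 = algebraMap A F ϖ * g)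
    (hϖ' : (algebraMap A F ϖ)⁻¹ ∉ s18tIntLoc A t (C ϖ) hC)
    (pb : PowerBasis F F') (hdim : pb.dim = p) (hy : pb.gen ^ p = algebraMap F F' f) :
    ∃ e ∈ s18tIntLoc A (algebraMap F F' t) (C ϖ) hC,
      (∃ n ∈ s18tIntLoc A (algebraMap F F' t) (C ϖ) hC, e ^ 2 - e = algebraMap A F' ϖ * n) ∧
      (¬ ∃ n ∈ s18tIntLoc A (algebraMap F F' t) (C ϖ) hC, e = algebraMap A F' ϖ * n) ∧
      ¬ ∃ n ∈ s18tIntLoc A (algebraMap F F' t) (C ϖ) hC, 1 - e = algebraMap A F' ϖ * n := by
  classical
  have hp0 : 0 < p := by omega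
  have hgen : pb.gen ∈ s18tIntLoc A (algebraMap F F' t) (C ϖ) hC :=
    s18ck_gen_mem F' hC t p hp0 f hf pb.gen hy
  have hpuF : (p : F) * algebraMap A F u = 1 := by
    rw [← map_natCast (algebraMap A F), ← map_mul, hpu, map_one]
  have hpuF' : (p : F') * algebraMap A F' u = 1 := by
    rw [← map_natCast (algebraMap A F'), ← map_mul, hpu, map_one]
  have hϖ0 : algebraMap A F ϖ ≠ 0 := by
    intro h
    apply hϖ'
    rw [h, inv_zero]
    exact Subring.zero_mem _
  have hconst : ∀ a : A, algebraMap A F' a ∈ s18tIntLoc A (algebraMap F F' t) (C ϖ) hC :=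
    fun a => s18ck_const_mem hC (algebraMap F F' t) a
  set y : F' := pb.gen with hydef
  set s : F' := ∑ k ∈ Finset.range p, y ^ k with hs
  set h : F' := ∑ k ∈ Finset.range p, ∑ j ∈ Finset.range k, y ^ j with hh
  have hsmem : s ∈ s18tIntLoc A (algebraMap F F' t) (C ϖ) hC :=
    Subring.sum_mem _ fun k _ => Subring.pow_mem _ hgen k
  have hhmem : h ∈ s18tIntLoc A (algebraMap F F' t) (C ϖ) hC :=
    Subring.sum_mem _ fun k _ => Subring.sum_mem _ fun j _ => Subring.pow_mem _ hgen j
  -- the two identities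
  have H1 : s * (y - 1) = algebraMap A F' ϖ * algebraMap F F' g := by
    rw [hs, geom_sum_mul, hy, IsScalarTower.algebraMap_apply A F F', ← map_mul, ← hfg, map_sub,
      map_one]
  have H2 : s - (p : F') = h * (y - 1) := by
    rw [hh, Finset.sum_mul]
    have : ∀ k ∈ Finset.range p, (∑ j ∈ Finset.range k, y ^ j) * (y - 1) = y ^ k - 1 :=
      fun k _ => geom_sum_mul y k
    rw [Finset.sum_congr rfl this, Finset.sum_sub_distrib, Finset.sum_const, Finset.card_range,
      nsmul_eq_mul, mul_one]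
  -- traces of the powers
  have htr : ∀ n : ℕ, Algebra.trace F F' (y ^ n) =
      if p ∣ n then (p : F) * f ^ (n / p) else 0 := s18ck_trace_pow pb p hdim f hy
  have htrs : Algebra.trace F F' s = (p : F) := by
    rw [hs, map_sum, Finset.sum_congr rfl (fun k _ => htr k),
      Finset.sum_eq_single 0]
    · simp
    · intro k hk hk0
      rw [if_neg]
      intro hdvd
      exact absurd (Nat.le_of_dvd (Nat.pos_of_ne_zero hk0) hdvd)
        (not_le.mpr (Finset.mem_range.mp hk))
    · intro h0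
      exact absurd (Finset.mem_range.mpr hp0) h0
  have htrsy : Algebra.trace F F' (s * y) = (p : F) * f := by
    have h1 : s * y = ∑ k ∈ Finset.range p, y ^ (k + 1) := by
      rw [hs, Finset.sum_mul]
      exact Finset.sum_congr rfl fun k _ => (pow_succ y k).symm
    rw [h1, map_sum, Finset.sum_congr rfl (fun k _ => htr (k + 1)),
      Finset.sum_eq_single (p - 1)]
    · rw [show p - 1 + 1 = p by omega, if_pos dvd_rfl, Nat.div_self hp0, pow_one]
    · intro k hk hk0
      rw [if_neg]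
      rintro ⟨c, hc⟩
      have hk' := Finset.mem_range.mp hk
      rcases c with _ | _ | c
      · omega
      · omega
      · have : 2 * p ≤ p * (c + 1 + 1) := by nlinarith
        omega
    · intro h0
      exact absurd (Finset.mem_range.mpr (by omega)) h0
  refine ⟨algebraMap A F' u * s, Subring.mul_mem _ (hconst u) hsmem, ?_, ?_, ?_⟩
  · refine ⟨algebraMap A F' u ^ 2 * algebraMap F F' g * h,
      Subring.mul_mem _ (Subring.mul_mem _ (Subring.pow_mem _ (hconst u) 2)
        (s18ck_map_mem_intLoc F' hC t g hg)) hhmem, ?_⟩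
    linear_combination (algebraMap A F' u * s) * hpuF' + (algebraMap A F' u ^ 2 * s) * H2 +
      (algebraMap A F' u ^ 2 * h) * H1
  · rintro ⟨n, hn, hen⟩
    have h1 := congrArg (Algebra.trace F F') hen
    rw [s18ck_trace_const_mul, s18ck_trace_const_mul, htrs, mul_comm, hpuF] at h1
    apply hϖ'
    have h2 : (algebraMap A F ϖ)⁻¹ = Algebra.trace F F' n := by
      rw [inv_eq_iff_eq_inv]
      exact (eq_inv_of_mul_eq_one_left h1.symm)
    rw [h2]
    exact s18ck_trace_mem_intLoc F' hC t ht n hn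
  · rintro ⟨n, hn, hen⟩
    have h1 : Algebra.trace F F' ((1 - algebraMap A F' u * s) * y) =
        Algebra.trace F F' (algebraMap A F' ϖ * n * y) := by rw [hen]
    have h3 : (1 - algebraMap A F' u * s) * y = y ^ 1 - algebraMap A F' u * (s * y) := by ring
    rw [h3, map_sub, htr 1, if_neg (fun hd => by have := Nat.le_of_dvd one_pos hd; omega),
      s18ck_trace_const_mul, htrsy, mul_assoc, s18ck_trace_const_mul, zero_sub] at h1
    have h4 : algebraMap A F u * ((p : F) * f) = f := by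
      rw [← mul_assoc, mul_comm _ (p : F), hpuF, one_mul]
    rw [h4] at h1
    apply hϖ'
    have h2 : (algebraMap A F ϖ)⁻¹ = - f⁻¹ * Algebra.trace F F' (n * y) := by
      rw [inv_eq_iff_eq_inv]
      apply eq_inv_of_mul_eq_one_right
      calc -f⁻¹ * Algebra.trace F F' (n * y) * algebraMap A F ϖ
          = -f⁻¹ * (algebraMap A F ϖ * Algebra.trace F F' (n * y)) := by ring
        _ = 1 := by rw [← h1]; field_simp
    rw [h2]
    exact Subring.mul_mem _ (Subring.neg_mem _ hf')
      (s18ck_trace_mem_intLoc F' hC t ht _ (Subring.mul_mem _ hn hgen))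

/-- THE ABSTRACT KUMMER STEP.  `F' = F(y)`, `y ^ p = f` with `p` a prime invertible in `A`,
`f` a unit of the Gauss ring `P_(ϖ)` of `F` with `f ≡ 1 mod ϖ`, `f` not a `p`-th power in `F`,
`F / L(t)` self-dual above `ϖ`: then `F' / L(t)` is finite and self-dual above `ϖ`, and
`P'_(ϖ) / ϖ` contains a nontrivial idempotent. -/
theorem s18ck_kummer (hC : Prime (C ϖ : A[X])) (t : F) (ht : Transcendental L t)
    [FiniteDimensional L⟮t⟯ F]
    (hG : S18SelfDual A L t (C ϖ) hC)
    (p : ℕ) (hp : p.Prime) (hpu : IsUnit (p : A))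
    (f : F) (hf0 : f ≠ 0) (hf : f ∈ s18tIntLoc A t (C ϖ) hC)
    (hf' : f⁻¹ ∈ s18tIntLoc A t (C ϖ) hC)
    (g : F) (hg : g ∈ s18tIntLoc A t (C ϖ) hC) (hfg : f - 1 = algebraMap A F ϖ * g)
    (hϖ' : (algebraMap A F ϖ)⁻¹ ∉ s18tIntLoc A t (C ϖ) hC)
    (y : F') (hy : y ^ p = algebraMap F F' f) (hroot : ∀ b : F, b ^ p ≠ f)
    (hgen : F⟮y⟯ = ⊤) :
    FiniteDimensional L⟮algebraMap F F' t⟯ F' ∧
    S18SelfDual A L (algebraMap F F' t) (C ϖ) hC ∧
    ∃ e ∈ s18tIntLoc A (algebraMap F F' t) (C ϖ) hC,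
      (∃ n ∈ s18tIntLoc A (algebraMap F F' t) (C ϖ) hC, e ^ 2 - e = algebraMap A F' ϖ * n) ∧
      (¬ ∃ n ∈ s18tIntLoc A (algebraMap F F' t) (C ϖ) hC, e = algebraMap A F' ϖ * n) ∧
      ¬ ∃ n ∈ s18tIntLoc A (algebraMap F F' t) (C ϖ) hC, 1 - e = algebraMap A F' ϖ * n := by
  obtain ⟨pb, hpbgen, hdim⟩ := s18ck_exists_powerBasis p hp f y hy hroot hgen
  haveI : FiniteDimensional F F' := pb.finite
  obtain ⟨u, hu⟩ := hpu.exists_right_inv
  rw [← hpbgen] at hy
  exact ⟨s18ck_finiteDimensional F' t,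
    s18ck_selfDual F' hC t hG p u hu f hf0 hf hf' pb hdim hy,
    s18ck_idempotent F' hC t ht p hp.two_le u hu f hf0 hf hf' g hg hfg hϖ' pb hdim hy⟩

end Geometric

end Fermat.Agent.S18
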