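import Mathlib
import Fermat.Agent.S18.V.Defs
import Fermat.Agent.S18.Core.Kummer

/-!
# S18, package C (row 402): the number-field core `s18c_numberfield`

`A₀` a DVR with uniformiser `ϖ`, `L₀ = Frac A₀`, `F ⊆ L₀((q))` with a good coordinate `t`
(`S18Coord`), `f = u₁/u₂ ≡ 1 mod ϖ`, `y ∈ L₀((q))`, `y ^ p = f`, `p` a prime invertible in `A₀`,
`ζ_p ∈ L₀`.  If `F(y) / L₀(t)` satisfies the hypotheses of theorem (T) in both charts, `y ∈ F`.

Proof.  Suppose not.  Then `F'' = F(y)` is a Kummer extension of degree `p` of `F`, the abstract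
Kummer step (`Core/Kummer.lean`, `s18ck_kummer`) shows that `F'' / L₀(t)` is Gauss-self-dual and
that `ε = p⁻¹ (1 + y + … + y^(p-1))` is a nontrivial idempotent of `P''_(ϖ) / ϖ`; `L₀` is
algebraically closed in `F'' ⊆ L₀((q))`; this contradicts theorem (T) (`s18t_main`).

* `s18cn_incl_injective`, `s18cn_exists_smul_of_res_eq_zero`, `s18cn_unif_not_unit`,
  `s18cn_radicand`: the needed facts on the Gauss ring `s18vO F`;
* `s18cn_mem_range_of_isAlgebraic`: the constants are algebraically closed in `K((q))`;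
* `s18cn_adjoin_eq_top`, `s18cn_mem_of_pow_eq`: field-theoretic glue;
* `s18cn_core`: the theorem for any `F''` with `F ≤ F''`, `y ∈ F''`, `F'' ≤ F ⊔ L₀⟮y⟯`;
* `s18cn_numberfield`: the statement of `s18c_numberfield` (`Core/Spec.lean`) with the two
  definitions `s18cExt`, `s18cLift` unfolded.
-/

set_option autoImplicit false
set_option linter.unusedSectionVars false
set_option linter.style.haveILetI false
set_option synthInstance.maxHeartbeats 400000

noncomputable section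

namespace Fermat.Agent.S18

open ModularCurve IsLocalRing Polynomial IntermediateField

section VBasics

variable {A₀ : Type*} [CommRing A₀] [IsDomain A₀] [IsDiscreteValuationRing A₀] [CharZero A₀]
variable {L₀ : Type*} [Field L₀] [Algebra A₀ L₀] [IsFractionRing A₀ L₀]
variable {ϖ : A₀}

theorem s18cn_incl_injective : Function.Injective (s18vIncl A₀ L₀) := by
  intro a b hab
  ext k
  have := congrArg (fun z => z.coeff k) hab
  simp only [coeffMap_coeff] at this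
  exact IsFractionRing.injective A₀ L₀ this

/-- `incl (c • a) = c · incl a`. -/
theorem s18cn_incl_smul (c : A₀) (a : LaurentSeries A₀) :
    s18vIncl A₀ L₀ (c • a) =
      algebraMap L₀ (LaurentSeries L₀) (algebraMap A₀ L₀ c) * s18vIncl A₀ L₀ a := by
  rw [algebraMap_laurentSeries_eq_single]
  ext k
  rw [HahnSeries.coeff_single_zero_mul, coeffMap_coeff, coeffMap_coeff, HahnSeries.coeff_smul,
    smul_eq_mul, map_mul]

theorem s18cn_res_smul (c : A₀) (a : LaurentSeries A₀) :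
    s18vRes A₀ (c • a) = residue A₀ c • s18vRes A₀ a := by
  ext k
  simp

/-- a series reducing to `0` is divisible by `ϖ`. -/
theorem s18cn_exists_smul_of_res_eq_zero (hϖ : Irreducible ϖ) (a : LaurentSeries A₀)
    (ha : s18vRes A₀ a = 0) : ∃ w : LaurentSeries A₀, a = ϖ • w := by
  classical
  have hϖ0 : ϖ ≠ 0 := hϖ.ne_zero
  have hdvd : ∀ k : ℤ, ϖ ∣ a.coeff k := by
    intro k
    have h1 : residue A₀ (a.coeff k) = 0 := by
      have := congrArg (fun z => z.coeff k) ha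
      simpa using this
    rw [residue_eq_zero_iff, hϖ.maximalIdeal_eq, Ideal.mem_span_singleton] at h1
    exact h1
  let φ : ZeroHom A₀ A₀ :=
    { toFun := fun x => if h : ϖ ∣ x then h.choose else 0
      map_zero' := by
        rw [dif_pos (dvd_zero ϖ)]
        have := (dvd_zero ϖ).choose_spec
        exact (mul_eq_zero.mp this.symm).resolve_left hϖ0 }
  refine ⟨a.map φ, ?_⟩
  ext k
  rw [HahnSeries.coeff_smul, HahnSeries.map_coeff, smul_eq_mul]
  change a.coeff k = ϖ * (if h : ϖ ∣ a.coeff k then h.choose else 0)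
  rw [dif_pos (hdvd k)]
  exact (hdvd k).choose_spec

theorem s18cn_incl_ne_zero {a : LaurentSeries A₀} (ha : s18vRes A₀ a ≠ 0) :
    s18vIncl A₀ L₀ a ≠ 0 := by
  intro h
  apply ha
  have : a = 0 := s18cn_incl_injective (L₀ := L₀) (by rw [h, map_zero])
  rw [this, map_zero]

/-- `ϖ` is not a unit of the Gauss ring. -/
theorem s18cn_unif_not_unit (hϖ : Irreducible ϖ) (F : IntermediateField L₀ (LaurentSeries L₀)) :
    (algebraMap A₀ F ϖ)⁻¹ ∉ s18vO A₀ F := by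
  rintro ⟨a, b, -, -, hb0, hab⟩
  apply hb0
  have hϖL : algebraMap L₀ (LaurentSeries L₀) (algebraMap A₀ L₀ ϖ) ≠ 0 := by
    rw [Ne, map_eq_zero_iff _ (algebraMap L₀ (LaurentSeries L₀)).injective,
      map_eq_zero_iff _ (IsFractionRing.injective A₀ L₀)]
    exact hϖ.ne_zero
  rw [IntermediateField.coe_inv, s18v_coe_algebraMap] at hab
  have h1 : s18vIncl A₀ L₀ b = s18vIncl A₀ L₀ (ϖ • a) := by
    rw [s18cn_incl_smul, ← hab, ← mul_assoc, mul_inv_cancel₀ hϖL, one_mul]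
  rw [s18cn_incl_injective h1, s18cn_res_smul]
  have : residue A₀ ϖ = 0 := by
    rw [residue_eq_zero_iff]
    exact hϖ.maximalIdeal_eq ▸ Ideal.mem_span_singleton_self ϖ
  rw [this, zero_smul]

/-- the radicand `f = u₁ / u₂`: a unit of the Gauss ring, `≡ 1 mod ϖ`. -/
theorem s18cn_radicand (hϖ : Irreducible ϖ) (F : IntermediateField L₀ (LaurentSeries L₀))
    (u₁ u₂ : LaurentSeries A₀) (h₁ : s18vIncl A₀ L₀ u₁ ∈ F) (h₂ : s18vIncl A₀ L₀ u₂ ∈ F)
    (hred : s18vRes A₀ u₁ = s18vRes A₀ u₂) (hne : s18vRes A₀ u₁ ≠ 0) :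
    ∃ f : F, f ≠ 0 ∧ (f : LaurentSeries L₀) * s18vIncl A₀ L₀ u₂ = s18vIncl A₀ L₀ u₁ ∧
      f ∈ s18vO A₀ F ∧ f⁻¹ ∈ s18vO A₀ F ∧
      ∃ g ∈ s18vO A₀ F, f - 1 = algebraMap A₀ F ϖ * g := by
  have hne2 : s18vRes A₀ u₂ ≠ 0 := hred ▸ hne
  have hu₁ : s18vIncl A₀ L₀ u₁ ≠ 0 := s18cn_incl_ne_zero hne
  have hu₂ : s18vIncl A₀ L₀ u₂ ≠ 0 := s18cn_incl_ne_zero hne2
  have hϖL : algebraMap L₀ (LaurentSeries L₀) (algebraMap A₀ L₀ ϖ) ≠ 0 := by
    rw [Ne, map_eq_zero_iff _ (algebraMap L₀ (LaurentSeries L₀)).injective,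
      map_eq_zero_iff _ (IsFractionRing.injective A₀ L₀)]
    exact hϖ.ne_zero
  -- `u₁ - u₂ = ϖ w`
  obtain ⟨w, hw⟩ := s18cn_exists_smul_of_res_eq_zero hϖ (u₁ - u₂) (by rw [map_sub, hred, sub_self])
  have hwF : s18vIncl A₀ L₀ w ∈ F := by
    have h3 : s18vIncl A₀ L₀ w = (algebraMap L₀ (LaurentSeries L₀) (algebraMap A₀ L₀ ϖ))⁻¹ *
        (s18vIncl A₀ L₀ u₁ - s18vIncl A₀ L₀ u₂) := by
      rw [← map_sub, hw, s18cn_incl_smul, ← mul_assoc, inv_mul_cancel₀ hϖL, one_mul]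
    rw [h3]
    exact mul_mem (inv_mem (F.algebraMap_mem _)) (sub_mem h₁ h₂)
  refine ⟨⟨s18vIncl A₀ L₀ u₁, h₁⟩ / ⟨s18vIncl A₀ L₀ u₂, h₂⟩, ?_, ?_, ?_, ?_, ?_⟩
  · refine div_ne_zero ?_ ?_ <;> (intro h; have := congrArg Subtype.val h; simp_all)
  · rw [IntermediateField.coe_div]
    exact div_mul_cancel₀ _ hu₂
  · refine ⟨u₁, u₂, h₁, h₂, hne2, ?_⟩
    rw [IntermediateField.coe_div]
    exact div_mul_cancel₀ _ hu₂
  · refine ⟨u₂, u₁, h₂, h₁, hne, ?_⟩
    rw [IntermediateField.coe_inv, IntermediateField.coe_div, inv_div]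
    exact div_mul_cancel₀ _ hu₁
  · refine ⟨⟨s18vIncl A₀ L₀ w, hwF⟩ / ⟨s18vIncl A₀ L₀ u₂, h₂⟩, ⟨w, u₂, hwF, h₂, hne2, ?_⟩, ?_⟩
    · rw [IntermediateField.coe_div]
      exact div_mul_cancel₀ _ hu₂
    · apply Subtype.ext
      rw [AddSubgroupClass.coe_sub, IntermediateField.coe_div, IntermediateField.coe_mul,
        IntermediateField.coe_div, s18v_coe_algebraMap, IntermediateField.coe_one]
      change s18vIncl A₀ L₀ u₁ / s18vIncl A₀ L₀ u₂ - 1 = _ * (s18vIncl A₀ L₀ w / s18vIncl A₀ L₀ u₂)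
      have h4 : s18vIncl A₀ L₀ u₁ - s18vIncl A₀ L₀ u₂ =
          algebraMap L₀ (LaurentSeries L₀) (algebraMap A₀ L₀ ϖ) * s18vIncl A₀ L₀ w := by
        rw [← map_sub, hw, s18cn_incl_smul]
      rw [← mul_div_assoc, ← h4, sub_div, div_self hu₂]

end VBasics

section Constants

variable {K : Type*} [Field K]

theorem s18cn_coeff_algebraMap_mul (c : K) (z : LaurentSeries K) (k : ℤ) :
    (algebraMap K (LaurentSeries K) c * z).coeff k = c * z.coeff k := by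
  rw [algebraMap_laurentSeries_eq_single, HahnSeries.coeff_single_zero_mul]

theorem s18cn_not_order_pos (x : LaurentSeries K) (hx0 : x ≠ 0) (hx : IsAlgebraic K x) :
    ¬ 0 < x.order := by
  intro hpos
  have hint : IsIntegral K x := hx.isIntegral
  have h0 := minpoly.aeval K x
  rw [aeval_eq_sum_range] at h0
  simp only [Algebra.smul_def] at h0
  have h1 := congrArg (fun z => z.coeff 0) h0
  simp only [HahnSeries.coeff_sum, HahnSeries.coeff_zero] at h1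
  rw [Finset.sum_eq_single 0] at h1
  · rw [pow_zero, s18cn_coeff_algebraMap_mul, HahnSeries.coeff_one, if_pos rfl, mul_one] at h1
    exact minpoly.coeff_zero_ne_zero hint hx0 h1
  · intro i _ hi
    rw [s18cn_coeff_algebraMap_mul]
    have : (x ^ i).coeff 0 = 0 := by
      apply HahnSeries.coeff_eq_zero_of_lt_order
      rw [HahnSeries.order_pow]
      exact nsmul_pos hpos hi
    rw [this, mul_zero]
  · intro h
    exact absurd (Finset.mem_range.mpr (Nat.succ_pos _)) h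

theorem s18cn_order_eq_zero (x : LaurentSeries K) (hx0 : x ≠ 0) (hx : IsAlgebraic K x) :
    x.order = 0 := by
  have h1 := s18cn_not_order_pos x hx0 hx
  have h2 := s18cn_not_order_pos x⁻¹ (inv_ne_zero hx0) hx.inv
  have h3 : x.order + x⁻¹.order = 0 := by
    rw [← HahnSeries.order_mul hx0 (inv_ne_zero hx0), mul_inv_cancel₀ hx0, HahnSeries.order_one]
  omega

/-- the constants are algebraically closed in `K((q))`. -/
theorem s18cn_mem_range_of_isAlgebraic (x : LaurentSeries K) (hx : IsAlgebraic K x) :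
    x = algebraMap K (LaurentSeries K) (x.coeff 0) := by
  by_contra hne
  have hx' : IsAlgebraic K (x - algebraMap K (LaurentSeries K) (x.coeff 0)) :=
    hx.sub (isAlgebraic_algebraMap _)
  have h0 : x - algebraMap K (LaurentSeries K) (x.coeff 0) ≠ 0 := sub_ne_zero.mpr hne
  have h1 := s18cn_order_eq_zero _ h0 hx'
  have h2 := mt HahnSeries.coeff_order_eq_zero.mp h0
  rw [h1, HahnSeries.coeff_sub, algebraMap_laurentSeries_eq_single,
    HahnSeries.coeff_single_same, sub_self] at h2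
  exact h2 rfl

end Constants

section Glue

variable {L₀ : Type*} [Field L₀]

/-- `F'' = F(y)` is generated by `y` over `F`. -/
theorem s18cn_adjoin_eq_top (F F'' : IntermediateField L₀ (LaurentSeries L₀)) (hle : F ≤ F'')
    (y : LaurentSeries L₀) (hyF'' : y ∈ F'') (hF'' : F'' ≤ F ⊔ L₀⟮y⟯) :
    letI : Algebra ↥F ↥F'' := (IntermediateField.inclusion hle).toRingHom.toAlgebra
    (↥F)⟮(⟨y, hyF''⟩ : ↥F'')⟯ = ⊤ := by
  letI : Algebra ↥F ↥F'' := (IntermediateField.inclusion hle).toRingHom.toAlgebra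
  haveI : IsScalarTower L₀ ↥F ↥F'' := IsScalarTower.of_algebraMap_eq (fun _ => rfl)
  rw [eq_top_iff]
  intro z _
  let M : IntermediateField L₀ (LaurentSeries L₀) :=
    (((↥F)⟮(⟨y, hyF''⟩ : ↥F'')⟯).restrictScalars L₀).map F''.val
  have hM : F ⊔ L₀⟮y⟯ ≤ M := by
    refine sup_le ?_ ?_
    · intro x hx
      refine (IntermediateField.mem_map _).mpr ⟨algebraMap ↥F ↥F'' ⟨x, hx⟩, ?_, rfl⟩
      rw [IntermediateField.mem_restrictScalars]
      exact IntermediateField.algebraMap_mem _ _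
    · rw [IntermediateField.adjoin_simple_le_iff]
      refine (IntermediateField.mem_map _).mpr ⟨⟨y, hyF''⟩, ?_, rfl⟩
      rw [IntermediateField.mem_restrictScalars]
      exact IntermediateField.mem_adjoin_simple_self _ _
  obtain ⟨w, hw, hwz⟩ := (IntermediateField.mem_map _).mp (hM (hF'' z.2))
  rw [IntermediateField.mem_restrictScalars] at hw
  have : w = z := Subtype.ext hwz
  rwa [this] at hw

/-- a `p`-th root of `y ^ p` in `F` forces `y ∈ F` when `L₀` contains the `p`-th roots of unity. -/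
theorem s18cn_mem_of_pow_eq (F : IntermediateField L₀ (LaurentSeries L₀)) (p : ℕ) (hp0 : p ≠ 0)
    (ζ : L₀) (hζ : IsPrimitiveRoot ζ p) (y : LaurentSeries L₀) (hy0 : y ≠ 0) (b : F)
    (hb : (b : LaurentSeries L₀) ^ p = y ^ p) : y ∈ F := by
  haveI : NeZero p := ⟨hp0⟩
  have hζ' : IsPrimitiveRoot (algebraMap L₀ (LaurentSeries L₀) ζ) p :=
    hζ.map_of_injective (algebraMap L₀ (LaurentSeries L₀)).injective
  have h1 : ((b : LaurentSeries L₀) / y) ^ p = 1 := by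
    rw [div_pow, hb, div_self (pow_ne_zero _ hy0)]
  obtain ⟨i, -, hi⟩ := hζ'.eq_pow_of_pow_eq_one h1
  have hζ0 : algebraMap L₀ (LaurentSeries L₀) ζ ^ i ≠ 0 := pow_ne_zero _ (hζ'.ne_zero hp0)
  have h2 : y = (b : LaurentSeries L₀) / algebraMap L₀ (LaurentSeries L₀) ζ ^ i := by
    have h3 : algebraMap L₀ (LaurentSeries L₀) ζ ^ i * y = b := by
      rw [hi, div_mul_cancel₀ _ hy0]
    rw [eq_div_iff hζ0, mul_comm]
    exact h3
  rw [h2]
  exact div_mem b.2 (pow_mem (F.algebraMap_mem ζ) i)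

end Glue

section Core

variable {A₀ : Type*} [CommRing A₀] [IsDomain A₀] [IsDiscreteValuationRing A₀] [CharZero A₀]
variable {L₀ : Type*} [Field L₀] [Algebra A₀ L₀] [IsFractionRing A₀ L₀]
variable {ϖ : A₀}

/-- if `y ∉ F`, the Kummer extension `F'' = F(y)` of `F` is Gauss-self-dual over `L₀(t)` and
carries a nontrivial idempotent modulo `ϖ`. -/
theorem s18cn_exists_idempotent (hϖ : Irreducible ϖ)
    (F F'' : IntermediateField L₀ (LaurentSeries L₀)) (hle : F ≤ F'') (t : F)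
    (hcoord : S18Coord hϖ F t)
    (p : ℕ) (hp : p.Prime) (hpu : IsUnit (p : A₀)) (ζ : L₀) (hζ : IsPrimitiveRoot ζ p)
    (u₁ u₂ : LaurentSeries A₀) (h₁ : s18vIncl A₀ L₀ u₁ ∈ F) (h₂ : s18vIncl A₀ L₀ u₂ ∈ F)
    (hred : s18vRes A₀ u₁ = s18vRes A₀ u₂) (hne : s18vRes A₀ u₁ ≠ 0)
    (y : LaurentSeries L₀) (hy : y ^ p * s18vIncl A₀ L₀ u₂ = s18vIncl A₀ L₀ u₁)
    (hyF'' : y ∈ F'') (hF'' : F'' ≤ F ⊔ L₀⟮y⟯) (hyF : y ∉ F) :
    Transcendental L₀ (IntermediateField.inclusion hle t) ∧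
    FiniteDimensional L₀⟮IntermediateField.inclusion hle t⟯ ↥F'' ∧
    S18SelfDual A₀ L₀ (IntermediateField.inclusion hle t) (C ϖ) (s18t_prime_C hϖ) ∧
    ∃ e ∈ s18tIntLoc A₀ (IntermediateField.inclusion hle t) (C ϖ) (s18t_prime_C hϖ),
      (∃ n ∈ s18tIntLoc A₀ (IntermediateField.inclusion hle t) (C ϖ) (s18t_prime_C hϖ),
        e ^ 2 - e = algebraMap A₀ ↥F'' ϖ * n) ∧
      (¬ ∃ n ∈ s18tIntLoc A₀ (IntermediateField.inclusion hle t) (C ϖ) (s18t_prime_C hϖ),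
        e = algebraMap A₀ ↥F'' ϖ * n) ∧
      ¬ ∃ n ∈ s18tIntLoc A₀ (IntermediateField.inclusion hle t) (C ϖ) (s18t_prime_C hϖ),
        1 - e = algebraMap A₀ ↥F'' ϖ * n := by
  -- the radicand
  obtain ⟨f, hf0, hfu, hfO, hfO', g, hgO, hfg⟩ := s18cn_radicand hϖ F u₁ u₂ h₁ h₂ hred hne
  have hϖO := s18cn_unif_not_unit hϖ F
  rw [← hcoord.intLoc_eq] at hfO hfO' hgO hϖO
  have hu₂ : s18vIncl A₀ L₀ u₂ ≠ 0 := s18cn_incl_ne_zero (hred ▸ hne)
  have hyf : y ^ p = (f : LaurentSeries L₀) := mul_right_cancel₀ hu₂ (hy.trans hfu.symm)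
  have hy0 : y ≠ 0 := by
    intro h
    apply hf0
    apply Subtype.ext
    rw [← hyf, h, zero_pow hp.ne_zero]
    rfl
  -- the extension `F'' / F`
  letI : Algebra ↥F ↥F'' := (IntermediateField.inclusion hle).toRingHom.toAlgebra
  haveI : IsScalarTower A₀ ↥F ↥F'' := IsScalarTower.of_algebraMap_eq (fun _ => rfl)
  haveI : IsScalarTower L₀ ↥F ↥F'' := IsScalarTower.of_algebraMap_eq (fun _ => rfl)
  have hy'' : (⟨y, hyF''⟩ : ↥F'') ^ p = algebraMap ↥F ↥F'' f := Subtype.ext hyf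
  have hroot : ∀ b : ↥F, b ^ p ≠ f := by
    intro b hb
    apply hyF
    refine s18cn_mem_of_pow_eq F p hp.ne_zero ζ hζ y hy0 b ?_
    rw [hyf, ← hb]
    rfl
  have hgen : (↥F)⟮(⟨y, hyF''⟩ : ↥F'')⟯ = ⊤ := s18cn_adjoin_eq_top F F'' hle y hyF'' hF''
  haveI := hcoord.fin
  exact ⟨s18ck_transcendental ↥F'' t hcoord.transc,
    s18ck_kummer (L := L₀) ↥F'' (s18t_prime_C hϖ) t
      hcoord.transc hcoord.selfDual p hp hpu f hf0 hfO hfO' g hgO hfg hϖO ⟨y, hyF''⟩ hy'' hroot hgen⟩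

/-- the constants `L₀` are algebraically closed in every intermediate field of `L₀((q))`. -/
theorem s18cn_constants (F'' : IntermediateField L₀ (LaurentSeries L₀)) (x : ↥F'')
    (hx : IsAlgebraic L₀ x) : x ∈ (algebraMap L₀ ↥F'').range := by
  have hx' : IsAlgebraic L₀ (x : LaurentSeries L₀) := (IntermediateField.isAlgebraic_iff).mp hx
  exact ⟨(x : LaurentSeries L₀).coeff 0,
    Subtype.ext (s18cn_mem_range_of_isAlgebraic _ hx').symm⟩

/-- the core, for any model `F''` of `F(y)` inside `L₀((q))`. -/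
theorem s18cn_core (hϖ : Irreducible ϖ)
    (F F'' : IntermediateField L₀ (LaurentSeries L₀)) (hle : F ≤ F'') (t : F)
    (hcoord : S18Coord hϖ F t)
    (p : ℕ) (hp : p.Prime) (hpu : IsUnit (p : A₀)) (ζ : L₀) (hζ : IsPrimitiveRoot ζ p)
    (u₁ u₂ : LaurentSeries A₀) (h₁ : s18vIncl A₀ L₀ u₁ ∈ F) (h₂ : s18vIncl A₀ L₀ u₂ ∈ F)
    (hred : s18vRes A₀ u₁ = s18vRes A₀ u₂) (hne : s18vRes A₀ u₁ ≠ 0)
    (y : LaurentSeries L₀) (hy : y ^ p * s18vIncl A₀ L₀ u₂ = s18vIncl A₀ L₀ u₁)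
    (hyF'' : y ∈ F'') (hF'' : F'' ≤ F ⊔ L₀⟮y⟯)
    (S S' : Finset A₀)
    (h0 : S18Chart A₀ L₀ ϖ (IntermediateField.inclusion hle t) S)
    (hinf : S18Chart A₀ L₀ ϖ (IntermediateField.inclusion hle t)⁻¹ S') :
    y ∈ F := by
  by_contra hyF
  obtain ⟨htr, hfd, hG'', e, he, hee, hne1, hne2⟩ := s18cn_exists_idempotent hϖ F F'' hle t hcoord
    p hp hpu ζ hζ u₁ u₂ h₁ h₂ hred hne y hy hyF'' hF'' hyF
  haveI := hfd
  rcases s18t_main hϖ (IntermediateField.inclusion hle t) htr (s18cn_constants F'') S S'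
    h0 hinf hG'' e he hee with h | h
  · exact hne1 h
  · exact hne2 h

/-- THE NUMBER-FIELD CORE = `s18c_numberfield` of `Core/Spec.lean` (with `s18cExt F y = F ⊔ L₀⟮y⟯`
and `s18cLift F y t = ⟨t, le_sup_left t.2⟩` unfolded). -/
theorem s18cn_numberfield (hϖ : Irreducible ϖ)
    (F : IntermediateField L₀ (LaurentSeries L₀)) (t : F) (hcoord : S18Coord hϖ F t)
    (p : ℕ) (hp : p.Prime) (hpu : IsUnit (p : A₀)) (ζ : L₀) (hζ : IsPrimitiveRoot ζ p)
    (u₁ u₂ : LaurentSeries A₀) (h₁ : s18vIncl A₀ L₀ u₁ ∈ F) (h₂ : s18vIncl A₀ L₀ u₂ ∈ F)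
    (hred : s18vRes A₀ u₁ = s18vRes A₀ u₂) (hne : s18vRes A₀ u₁ ≠ 0)
    (y : LaurentSeries L₀) (hy : y ^ p * s18vIncl A₀ L₀ u₂ = s18vIncl A₀ L₀ u₁)
    (S S' : Finset A₀)
    (h0 : S18Chart A₀ L₀ ϖ
      (⟨t, (le_sup_left : F ≤ F ⊔ L₀⟮y⟯) t.2⟩ : ↥(F ⊔ L₀⟮y⟯)) S)
    (hinf : S18Chart A₀ L₀ ϖ
      (⟨t, (le_sup_left : F ≤ F ⊔ L₀⟮y⟯) t.2⟩ : ↥(F ⊔ L₀⟮y⟯))⁻¹ S') :
    y ∈ F :=
  s18cn_core hϖ F (F ⊔ L₀⟮y⟯) le_sup_left t hcoord p hp hpu ζ hζ u₁ u₂ h₁ h₂ hred hne y hy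
    ((le_sup_right : L₀⟮y⟯ ≤ F ⊔ L₀⟮y⟯) (IntermediateField.mem_adjoin_simple_self L₀ y)) le_rfl
    S S' h0 hinf

end Core

end Fermat.Agent.S18
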