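import Mathlib
import Fermat.Agent.S18.V.Defs
import Fermat.Agent.S18.Core.Kummer
import Fermat.Agent.S18.Core.NumberField

/-!
# S18, package C (row 420): descent of the level `s18c_level_descent`

`F₁ ⊆ F₂ ⊆ L₀((q))`, `t` a good coordinate of both, `f = u₁/u₂ ∈ F₁`, `f ≡ 1 mod ϖ`,
`y ∈ F₂`, `y ^ p = f`  ⊢  `y ∈ F₁`.

Proof.  Suppose not; `F'' = F₁(y) ⊆ F₂`.  By `s18cn_exists_idempotent` the ring `P''_(ϖ)` (integral
closure of `A₀[t]_(ϖ)` in `F''`) contains `ε` with `ε² - ε ∈ ϖ P''_(ϖ)`, `ε, 1 - ε ∉ ϖ P''_(ϖ)`.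
But `P''_(ϖ) = F'' ∩ P₂_(ϖ)` (`s18cl_mem_intLoc_of_map`) and `P₂_(ϖ) = s18vO F₂` is the Gauss ring
of `F₂`, in which `ϖ` is a prime element (`s18cl_dvd_or_dvd`): contradiction.
-/

set_option autoImplicit false
set_option linter.unusedSectionVars false
set_option linter.style.haveILetI false
set_option synthInstance.maxHeartbeats 400000

noncomputable section

namespace Fermat.Agent.S18

open ModularCurve IsLocalRing Polynomial IntermediateField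

section Abstract

universe u

variable {A : Type*} [CommRing A] [IsDomain A] [IsDiscreteValuationRing A] [CharZero A]
variable {L : Type*} [Field L] [Algebra A L] [IsFractionRing A L]
variable {F : Type u} [Field F] [Algebra A F] [Algebra L F] [IsScalarTower A L F]
variable {ϖ : A}

variable (F' : Type u) [Field F'] [Algebra F F'] [Algebra A F'] [Algebra L F']
  [IsScalarTower A F F'] [IsScalarTower L F F'] [IsScalarTower A L F']

/-- the Gauss ring of `L(t)` inside `F` maps ONTO the Gauss ring of `L(t)` inside `F'`. -/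
theorem s18cl_exists_loc (hC : Prime (C ϖ : A[X])) (t : F) (ht : Transcendental L t) (x' : F')
    (hx' : x' ∈ s18tLoc A (algebraMap F F' t) (C ϖ) hC) :
    ∃ x ∈ s18tLoc A t (C ϖ) hC, algebraMap F F' x = x' := by
  have htA : Transcendental A t := s18tb_transcendental ht
  obtain ⟨a, b, hb, hab⟩ := hx'
  have hb0 : aeval t b ≠ 0 := s18tlg_aeval_ne_zero htA (s18tlg_ne_zero_of_not_dvd hb)
  refine ⟨aeval t a / aeval t b, s18tlg_div_mem_loc htA (C ϖ) hC a hb, ?_⟩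
  rw [aeval_algebraMap_apply, aeval_algebraMap_apply] at hab
  have hb0' : algebraMap F F' (aeval t b) ≠ 0 := by
    rwa [Ne, map_eq_zero_iff _ (algebraMap F F').injective]
  rw [map_div₀, div_eq_iff hb0', hab]

/-- integrality over the Gauss ring of `L(t)` descends to a subfield: `P_(ϖ) = F ∩ P'_(ϖ)`. -/
theorem s18cl_mem_intLoc_of_map (hC : Prime (C ϖ : A[X])) (t : F) (ht : Transcendental L t)
    (x : F) (hx : algebraMap F F' x ∈ s18tIntLoc A (algebraMap F F' t) (C ϖ) hC) :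
    x ∈ s18tIntLoc A t (C ϖ) hC := by
  -- the ring hom `A[t]_(ϖ) → A[t']_(ϖ)`, surjective
  let ψ : ↥(s18tLoc A t (C ϖ) hC) →+* ↥(s18tLoc A (algebraMap F F' t) (C ϖ) hC) :=
    { toFun := fun u => ⟨algebraMap F F' (u : F), by
        obtain ⟨a, b, hb, hab⟩ := u.2
        refine ⟨a, b, hb, ?_⟩
        rw [aeval_algebraMap_apply, aeval_algebraMap_apply, ← map_mul, hab]⟩
      map_one' := Subtype.ext (map_one _)
      map_mul' := fun u v => Subtype.ext (map_mul _ _ _)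
      map_zero' := Subtype.ext (map_zero _)
      map_add' := fun u v => Subtype.ext (map_add _ _ _) }
  have hψ : Function.Surjective ψ := by
    intro x'
    obtain ⟨u, hu, hux⟩ := s18cl_exists_loc F' hC t ht x'.1 x'.2
    exact ⟨⟨u, hu⟩, Subtype.ext hux⟩
  rw [mem_s18tIntLoc] at hx ⊢
  obtain ⟨P', hP'monic, hP'ev⟩ := hx
  obtain ⟨P, hP, -, hPmonic⟩ := Polynomial.lifts_and_degree_eq_and_monic
    ((Polynomial.mem_lifts _).mpr (Polynomial.map_surjective ψ hψ P')) hP'monic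
  refine ⟨P, hPmonic, ?_⟩
  rw [← hP, eval₂_map] at hP'ev
  have h1 : eval₂ ((algebraMap F F').comp (algebraMap ↥(s18tLoc A t (C ϖ) hC) F))
      (algebraMap F F' x) P = 0 := hP'ev
  rw [← Polynomial.hom_eval₂] at h1
  exact (map_eq_zero_iff _ (algebraMap F F').injective).mp h1

end Abstract

section Gauss

variable {A₀ : Type*} [CommRing A₀] [IsDomain A₀] [IsDiscreteValuationRing A₀] [CharZero A₀]
variable {L₀ : Type*} [Field L₀] [Algebra A₀ L₀] [IsFractionRing A₀ L₀]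
variable {ϖ : A₀}

theorem s18cl_residue_unif (hϖ : Irreducible ϖ) : residue A₀ ϖ = 0 := by
  rw [residue_eq_zero_iff]
  exact hϖ.maximalIdeal_eq ▸ Ideal.mem_span_singleton_self ϖ

/-- (= `s18v_dvd_iff` of `V/Spec.lean`) for `x = a/b` with `b̄ ≠ 0`: `x ∈ ϖ · s18vO F ↔ ā = 0`. -/
theorem s18cl_dvd_iff (hϖ : Irreducible ϖ) (F : IntermediateField L₀ (LaurentSeries L₀))
    (x : F) (a b : LaurentSeries A₀) (ha : s18vIncl A₀ L₀ a ∈ F) (hb : s18vIncl A₀ L₀ b ∈ F)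
    (hb0 : s18vRes A₀ b ≠ 0) (hx : (x : LaurentSeries L₀) * s18vIncl A₀ L₀ b = s18vIncl A₀ L₀ a) :
    (∃ y ∈ s18vO A₀ F, x = algebraMap A₀ F ϖ * y) ↔ s18vRes A₀ a = 0 := by
  have hϖL : algebraMap L₀ (LaurentSeries L₀) (algebraMap A₀ L₀ ϖ) ≠ 0 := by
    rw [Ne, map_eq_zero_iff _ (algebraMap L₀ (LaurentSeries L₀)).injective,
      map_eq_zero_iff _ (IsFractionRing.injective A₀ L₀)]
    exact hϖ.ne_zero
  have hbL : s18vIncl A₀ L₀ b ≠ 0 := s18cn_incl_ne_zero hb0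
  constructor
  · rintro ⟨y, ⟨c, d, -, -, hd0, hy⟩, rfl⟩
    rw [IntermediateField.coe_mul, s18v_coe_algebraMap] at hx
    -- `ϖ c b = a d`
    have h1 : s18vIncl A₀ L₀ (ϖ • (c * b)) = s18vIncl A₀ L₀ (a * d) := by
      rw [s18cn_incl_smul, map_mul, map_mul, ← hx, ← hy]
      ring
    have h2 := congrArg (s18vRes A₀) (s18cn_incl_injective h1)
    rw [s18cn_res_smul, s18cl_residue_unif hϖ, zero_smul, map_mul] at h2
    exact (mul_eq_zero.mp h2.symm).resolve_right hd0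
  · intro ha0
    obtain ⟨w, hw⟩ := s18cn_exists_smul_of_res_eq_zero hϖ a ha0
    have hwF : s18vIncl A₀ L₀ w ∈ F := by
      have h3 : s18vIncl A₀ L₀ w = (algebraMap L₀ (LaurentSeries L₀) (algebraMap A₀ L₀ ϖ))⁻¹ *
          s18vIncl A₀ L₀ a := by
        rw [hw, s18cn_incl_smul, ← mul_assoc, inv_mul_cancel₀ hϖL, one_mul]
      rw [h3]
      exact mul_mem (inv_mem (F.algebraMap_mem _)) ha
    refine ⟨⟨s18vIncl A₀ L₀ w, hwF⟩ / ⟨s18vIncl A₀ L₀ b, hb⟩, ⟨w, b, hwF, hb, hb0, ?_⟩, ?_⟩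
    · rw [IntermediateField.coe_div]
      exact div_mul_cancel₀ _ hbL
    · apply Subtype.ext
      rw [IntermediateField.coe_mul, IntermediateField.coe_div, s18v_coe_algebraMap]
      change (x : LaurentSeries L₀) = _ * (s18vIncl A₀ L₀ w / s18vIncl A₀ L₀ b)
      rw [← mul_div_assoc, ← s18cn_incl_smul, ← hw, ← hx, mul_div_cancel_right₀ _ hbL]

/-- `ϖ` is a prime element of the Gauss ring. -/
theorem s18cl_dvd_or_dvd (hϖ : Irreducible ϖ) (F : IntermediateField L₀ (LaurentSeries L₀))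
    (x x' : F) (hx : x ∈ s18vO A₀ F) (hx' : x' ∈ s18vO A₀ F)
    (h : ∃ y ∈ s18vO A₀ F, x * x' = algebraMap A₀ F ϖ * y) :
    (∃ y ∈ s18vO A₀ F, x = algebraMap A₀ F ϖ * y) ∨
      ∃ y ∈ s18vO A₀ F, x' = algebraMap A₀ F ϖ * y := by
  obtain ⟨a, b, ha, hb, hb0, hab⟩ := hx
  obtain ⟨a', b', ha', hb', hb0', hab'⟩ := hx'
  have h1 : ((x * x' : F) : LaurentSeries L₀) * s18vIncl A₀ L₀ (b * b') =
      s18vIncl A₀ L₀ (a * a') := by
    rw [IntermediateField.coe_mul, map_mul, map_mul, ← hab, ← hab']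
    ring
  have h2 := (s18cl_dvd_iff hϖ F (x * x') (a * a') (b * b')
    (by rw [map_mul]; exact mul_mem ha ha') (by rw [map_mul]; exact mul_mem hb hb')
    (by rw [map_mul]; exact mul_ne_zero hb0 hb0') h1).mp h
  rw [map_mul] at h2
  rcases mul_eq_zero.mp h2 with h3 | h3
  · exact Or.inl ((s18cl_dvd_iff hϖ F x a b ha hb hb0 hab).mpr h3)
  · exact Or.inr ((s18cl_dvd_iff hϖ F x' a' b' ha' hb' hb0' hab').mpr h3)

end Gauss

section Main

variable {A₀ : Type*} [CommRing A₀] [IsDomain A₀] [IsDiscreteValuationRing A₀] [CharZero A₀]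
variable {L₀ : Type*} [Field L₀] [Algebra A₀ L₀] [IsFractionRing A₀ L₀]
variable {ϖ : A₀}

/-- the level descent, for any model `F''` of `F₁(y)` inside `F₂`. -/
theorem s18cl_core (hϖ : Irreducible ϖ)
    (F₁ F'' F₂ : IntermediateField L₀ (LaurentSeries L₀)) (h₁₂ : F₁ ≤ F'') (h₂₃ : F'' ≤ F₂)
    (t : F₁) (hc₁ : S18Coord hϖ F₁ t)
    (hc₂ : S18Coord hϖ F₂ (IntermediateField.inclusion h₂₃ (IntermediateField.inclusion h₁₂ t)))
    (p : ℕ) (hp : p.Prime) (hpu : IsUnit (p : A₀)) (ζ : L₀) (hζ : IsPrimitiveRoot ζ p)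
    (u₁ u₂ : LaurentSeries A₀) (h₁ : s18vIncl A₀ L₀ u₁ ∈ F₁) (h₂ : s18vIncl A₀ L₀ u₂ ∈ F₁)
    (hred : s18vRes A₀ u₁ = s18vRes A₀ u₂) (hne : s18vRes A₀ u₁ ≠ 0)
    (y : LaurentSeries L₀) (hy : y ^ p * s18vIncl A₀ L₀ u₂ = s18vIncl A₀ L₀ u₁)
    (hyF'' : y ∈ F'') (hF'' : F'' ≤ F₁ ⊔ L₀⟮y⟯) : y ∈ F₁ := by
  by_contra hyF
  obtain ⟨htr, hfd, -, e, he, ⟨n, hn, hen⟩, hne1, hne2⟩ := s18cn_exists_idempotent hϖ F₁ F'' h₁₂ t
    hc₁ p hp hpu ζ hζ u₁ u₂ h₁ h₂ hred hne y hy hyF'' hF'' hyF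
  -- the extension `F₂ / F''`
  letI : Algebra ↥F'' ↥F₂ := (IntermediateField.inclusion h₂₃).toRingHom.toAlgebra
  haveI : IsScalarTower A₀ ↥F'' ↥F₂ := IsScalarTower.of_algebraMap_eq (fun _ => rfl)
  haveI : IsScalarTower L₀ ↥F'' ↥F₂ := IsScalarTower.of_algebraMap_eq (fun _ => rfl)
  have hϖ0 : algebraMap A₀ ↥F'' ϖ ≠ 0 := by
    rw [Ne, IsScalarTower.algebraMap_apply A₀ L₀ ↥F'',
      map_eq_zero_iff _ (algebraMap L₀ ↥F'').injective,
      map_eq_zero_iff _ (IsFractionRing.injective A₀ L₀)]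
    exact hϖ.ne_zero
  have hϖ2 : algebraMap A₀ ↥F₂ ϖ ≠ 0 := by
    rw [Ne, IsScalarTower.algebraMap_apply A₀ L₀ ↥F₂,
      map_eq_zero_iff _ (algebraMap L₀ ↥F₂).injective,
      map_eq_zero_iff _ (IsFractionRing.injective A₀ L₀)]
    exact hϖ.ne_zero
  -- ascent to `F₂`
  have hasc : ∀ x : ↥F'',
      x ∈ s18tIntLoc A₀ (IntermediateField.inclusion h₁₂ t) (C ϖ) (s18t_prime_C hϖ) →
      algebraMap ↥F'' ↥F₂ x ∈ s18vO A₀ F₂ := by
    intro x hx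
    rw [← hc₂.intLoc_eq]
    exact s18ck_map_mem_intLoc ↥F₂ (s18t_prime_C hϖ) (IntermediateField.inclusion h₁₂ t) x hx
  -- descent
  have hdesc : ∀ x : ↥F'', algebraMap ↥F'' ↥F₂ x ∈ s18vO A₀ F₂ →
      x ∈ s18tIntLoc A₀ (IntermediateField.inclusion h₁₂ t) (C ϖ) (s18t_prime_C hϖ) := by
    intro x hx
    rw [← hc₂.intLoc_eq] at hx
    exact s18cl_mem_intLoc_of_map ↥F₂ (s18t_prime_C hϖ) (IntermediateField.inclusion h₁₂ t) htr x hx
  have hkey : ∀ z : ↥F'',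
      (∃ w ∈ s18vO A₀ F₂, algebraMap ↥F'' ↥F₂ z = algebraMap A₀ ↥F₂ ϖ * w) →
      ∃ n ∈ s18tIntLoc A₀ (IntermediateField.inclusion h₁₂ t) (C ϖ) (s18t_prime_C hϖ),
        z = algebraMap A₀ ↥F'' ϖ * n := by
    rintro z ⟨w, hw, hzw⟩
    refine ⟨(algebraMap A₀ ↥F'' ϖ)⁻¹ * z, hdesc _ ?_, by rw [mul_inv_cancel_left₀ hϖ0]⟩
    have h4 : algebraMap ↥F'' ↥F₂ ((algebraMap A₀ ↥F'' ϖ)⁻¹ * z) = w := by
      rw [map_mul, map_inv₀, ← IsScalarTower.algebraMap_apply A₀ ↥F'' ↥F₂, hzw,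
        inv_mul_cancel_left₀ hϖ2]
    rwa [h4]
  -- `ϖ` is prime in the Gauss ring of `F₂`
  have h3 : ∃ w ∈ s18vO A₀ F₂, algebraMap ↥F'' ↥F₂ e * (algebraMap ↥F'' ↥F₂ e - 1) =
      algebraMap A₀ ↥F₂ ϖ * w := by
    refine ⟨algebraMap ↥F'' ↥F₂ n, hasc n hn, ?_⟩
    rw [IsScalarTower.algebraMap_apply A₀ ↥F'' ↥F₂, ← map_mul, ← hen, map_sub, map_pow]
    ring
  rcases s18cl_dvd_or_dvd hϖ F₂ _ _ (hasc e he)
    (Subring.sub_mem _ (hasc e he) (Subring.one_mem _)) h3 with h | h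
  · exact hne1 (hkey e h)
  · apply hne2
    apply hkey (1 - e)
    obtain ⟨w, hw, hew⟩ := h
    exact ⟨-w, Subring.neg_mem _ hw, by rw [map_sub, map_one, ← neg_sub, hew, mul_neg]⟩

/-- DESCENT OF THE LEVEL = `s18c_level_descent` of `Core/Small.lean`. -/
theorem s18cl_level_descent (hϖ : Irreducible ϖ)
    (F₁ F₂ : IntermediateField L₀ (LaurentSeries L₀)) (hle : F₁ ≤ F₂) (t : F₁)
    (hc₁ : S18Coord hϖ F₁ t) (hc₂ : S18Coord hϖ F₂ ⟨t, hle t.2⟩)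
    (p : ℕ) (hp : p.Prime) (hpu : IsUnit (p : A₀)) (ζ : L₀) (hζ : IsPrimitiveRoot ζ p)
    (u₁ u₂ : LaurentSeries A₀) (h₁ : s18vIncl A₀ L₀ u₁ ∈ F₁) (h₂ : s18vIncl A₀ L₀ u₂ ∈ F₁)
    (hred : s18vRes A₀ u₁ = s18vRes A₀ u₂) (hne : s18vRes A₀ u₁ ≠ 0)
    (y : LaurentSeries L₀) (hy : y ^ p * s18vIncl A₀ L₀ u₂ = s18vIncl A₀ L₀ u₁)
    (hyF : y ∈ F₂) : y ∈ F₁ :=
  s18cl_core hϖ F₁ (F₁ ⊔ L₀⟮y⟯) F₂ le_sup_left
    (sup_le hle ((IntermediateField.adjoin_simple_le_iff).mpr hyF)) t hc₁ hc₂ p hp hpu ζ hζ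
    u₁ u₂ h₁ h₂ hred hne y hy
    ((le_sup_right : L₀⟮y⟯ ≤ F₁ ⊔ L₀⟮y⟯) (IntermediateField.mem_adjoin_simple_self L₀ y)) le_rfl

end Main

end Fermat.Agent.S18
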