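import Fermat.Agent.S18.H.Defs

/-!
# S18, the primes `ℓ = 2, 3` : the Hauptmodul definitions live in `S18/H/Defs.lean`
(`s18hUnit`, `s18hUnitInv`, `s18hq`, `s18hExp`); this file only re-imports them.
-/
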