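import Mathlib
import Fermat.Agent.S18.A.Defs
import Fermat.Agent.S18.V.Defs

/-!
# S18, Core : definitions (extracted VERBATIM from `S18/Core/Spec.lean`, origin/helper6 118c9df, so
that the leaf files of rows 402, 404, 405, 406, 420, 421 can state their theorems without
importing the Spec)

* `s18cExt F y = F(y)`, `s18cLift` : the inclusion `F → F(y)` on elements;
* `s18dVal A E = 𝔸 ∩ E`, `s18dIncl : 𝔸 ∩ E → 𝔸`, `s18dUp : E((q)) → ℚ̄((q))`;
* `s18d_up_incl`, `s18d_natCast_mem`.
-/

set_option autoImplicit false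
set_option linter.unusedSectionVars false
set_option synthInstance.maxHeartbeats 400000

noncomputable section

namespace Fermat.Agent.S18

open ModularCurve AlgebraicCurve IsLocalRing Polynomial IntermediateField

section NumberField

variable {A₀ : Type*} [CommRing A₀] [IsDomain A₀] [IsDiscreteValuationRing A₀] [CharZero A₀]
variable {L₀ : Type*} [Field L₀] [Algebra A₀ L₀] [IsFractionRing A₀ L₀]
variable {ϖ : A₀}

/-- `F(y)` -/
def s18cExt (F : IntermediateField L₀ (LaurentSeries L₀)) (y : LaurentSeries L₀) :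
    IntermediateField L₀ (LaurentSeries L₀) := F ⊔ L₀⟮y⟯

/-- the inclusion `F → F(y)` on elements -/
def s18cLift (F : IntermediateField L₀ (LaurentSeries L₀)) (y : LaurentSeries L₀) (t : F) :
    s18cExt F y := ⟨t, (le_sup_left : F ≤ F ⊔ L₀⟮y⟯) t.2⟩

end NumberField

section Descent

variable (A : ValuationSubring (AlgebraicClosure ℚ))
variable (E : IntermediateField ℚ (AlgebraicClosure ℚ))

/-- `A₀ = 𝔸 ∩ E` as a valuation subring of `E`. -/
def s18dVal : ValuationSubring E := A.comap (algebraMap E (AlgebraicClosure ℚ))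

/-- the inclusion `𝔸 ∩ E → 𝔸` -/
def s18dIncl : s18dVal A E →+* A where
  toFun x := ⟨algebraMap E (AlgebraicClosure ℚ) x, x.2⟩
  map_one' := Subtype.ext (map_one _)
  map_mul' x y := Subtype.ext (map_mul _ _ _)
  map_zero' := Subtype.ext (map_zero _)
  map_add' x y := Subtype.ext (map_add _ _ _)

/-- coefficientwise `E((q)) → ℚ̄((q))` -/
abbrev s18dUp : LaurentSeries E →+* LaurentSeries (AlgebraicClosure ℚ) :=
  coeffMap (algebraMap E (AlgebraicClosure ℚ))

variable {A E}

theorem s18d_up_incl (v : LaurentSeries (s18dVal A E)) :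
    s18dUp E (s18vIncl (s18dVal A E) E v) = coeffMap A.subtype (coeffMap (s18dIncl A E) v) := by
  rw [coeffMap_coeffMap, coeffMap_coeffMap]
  rfl

end Descent

section Assembly

variable {ℓ : ℕ} [Fact ℓ.Prime]
variable (A : ValuationSubring (AlgebraicClosure ℚ))

theorem s18d_natCast_mem (E : IntermediateField ℚ (AlgebraicClosure ℚ))
    (hA : A.LiesOverPrime ℓ) : ((ℓ : ℕ) : s18dVal A E) ∈ maximalIdeal (s18dVal A E) := by
  rw [mem_maximalIdeal, mem_nonunits_iff]
  intro hu
  have h1 : IsUnit (s18dIncl A E ((ℓ : ℕ) : s18dVal A E)) := hu.map _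
  rw [map_natCast] at h1
  have h2 : ((ℓ : ℕ) : AlgebraicClosure ℚ) ∈ A.nonunits := hA
  rw [ValuationSubring.mem_nonunits_iff_exists_mem_maximalIdeal] at h2
  obtain ⟨hm, hmem⟩ := h2
  rw [mem_maximalIdeal, mem_nonunits_iff] at hmem
  exact hmem (by convert h1 using 1; exact Subtype.ext (by simp))

end Assembly

end Fermat.Agent.S18
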