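import Mathlib
import Fermat.Agent.S18.A.Defs
import Fermat.Agent.S18.V.Defs

/-!
# S18, package D (row 405): descent of the data to a number field, `s18d_descend`

Given good integral `u₁, u₂ ∈ 𝔸((q))` (images in `F_ℚ̄(N)`) with `p ∣ ord_q u₁ - ord_q u₂`: a number
field `E ⊆ ℚ̄` containing a primitive `n`-th root of unity, `v₁, v₂ ∈ (𝔸 ∩ E)((q))` mapping to
`u₁, u₂` with images in `F_E(N)`, and `y ∈ E((q))` with `y ^ p * v₂ = v₁`.

* `s18dd_coeffMap_mem_full`: base change `F_K(N) → F_K'(N)` along a field homomorphism;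
* `s18dd_exists_model`: every element of `F_ℚ̄(N)` is defined over a number field;
* `s18dd_exists_coeff`: descent of the coefficients to `𝔸 ∩ E`;
* `s18dd_exists_root_powerSeries`, `s18dd_exists_root`: `p`-th roots in `K[[q]]`, `K((q))` (Hensel);
* `s18dd_descend`: the statement of `s18d_descend` (`Core/Spec.lean`), with `s18ddVal`, `s18ddIncl`
  = `s18dVal`, `s18dIncl` (identical bodies).
-/

set_option autoImplicit false
set_option linter.unusedSectionVars false
set_option linter.unusedVariables false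
set_option linter.style.haveILetI false
set_option synthInstance.maxHeartbeats 400000

noncomputable section

namespace Fermat.Agent.S18

open ModularCurve AlgebraicCurve IsLocalRing Polynomial IntermediateField

section BaseChange

variable {K K' : Type*} [Field K] [Field K']

theorem s18dd_coeffMap_algebraMap (φ : K →+* K') (c : K) :
    coeffMap φ (algebraMap K (LaurentSeries K) c) = algebraMap K' (LaurentSeries K') (φ c) := by
  rw [algebraMap_laurentSeries_eq_single, algebraMap_laurentSeries_eq_single, coeffMap_single]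

theorem s18dd_coeffMap_injective (φ : K →+* K') : Function.Injective (coeffMap φ) := by
  intro a b hab
  ext k
  have := congrArg (fun z => z.coeff k) hab
  simp only [coeffMap_coeff] at this
  exact φ.injective this

/-- base change of the modular function field along a field homomorphism. -/
theorem s18dd_coeffMap_mem_full (φ : K →+* K') (N : ℕ) {x : LaurentSeries K}
    (hx : x ∈ modularFunctionFieldFullC K N) :
    coeffMap φ x ∈ modularFunctionFieldFullC K' N := by
  have hx' : x ∈ Subfield.closure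
      (Set.range (algebraMap K (LaurentSeries K)) ∪ divisorExpansionsC K N) := hx
  have hle : Subfield.closure
      (Set.range (algebraMap K (LaurentSeries K)) ∪ divisorExpansionsC K N) ≤
      ((modularFunctionFieldFullC K' N).toSubfield).comap (coeffMap φ) := by
    rw [Subfield.closure_le]
    rintro y (⟨a, rfl⟩ | ⟨d, hd, hdN, rfl⟩)
    · change coeffMap φ _ ∈ modularFunctionFieldFullC K' N
      rw [s18dd_coeffMap_algebraMap]
      exact (modularFunctionFieldFullC K' N).algebraMap_mem _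
    · change coeffMap φ _ ∈ modularFunctionFieldFullC K' N
      rw [coeffMap_qExpand, coeffMap_jqModC]
      exact jqModCd_mem_full K' N hdN
  exact hle hx'

end BaseChange

section Orders

variable {K K' : Type*} [Field K] [Field K']

theorem s18dd_order_coeffMap (φ : K →+* K') (x : LaurentSeries K) :
    (coeffMap φ x).order = x.order := by
  by_cases hx : x = 0
  · rw [hx, map_zero, HahnSeries.order_zero, HahnSeries.order_zero]
  have hx' : coeffMap φ x ≠ 0 := fun h => hx (s18dd_coeffMap_injective φ (by rw [h, map_zero]))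
  apply le_antisymm
  · apply HahnSeries.order_le_of_coeff_ne_zero
    rw [coeffMap_coeff, Ne, map_eq_zero_iff _ φ.injective]
    exact mt HahnSeries.coeff_order_eq_zero.mp hx
  · apply HahnSeries.order_le_of_coeff_ne_zero
    have h1 := mt HahnSeries.coeff_order_eq_zero.mp hx'
    rw [coeffMap_coeff] at h1
    intro h
    exact h1 (by rw [h, map_zero])

theorem s18dd_leadingCoeff_coeffMap (φ : K →+* K') (x : LaurentSeries K) :
    (coeffMap φ x).leadingCoeff = φ x.leadingCoeff := by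
  rw [HahnSeries.leadingCoeff_eq, HahnSeries.leadingCoeff_eq, s18dd_order_coeffMap, coeffMap_coeff]

end Orders

section Models

/-- `x ∈ ℚ̄((q))` has a model over the number field `E`: it is the image of an element of `F_E(N)`. -/
def S18ddModel (N : ℕ) (x : LaurentSeries (AlgebraicClosure ℚ)) : Prop :=
  ∃ (E : IntermediateField ℚ (AlgebraicClosure ℚ)) (_ : FiniteDimensional ℚ E)
    (z : LaurentSeries E), z ∈ modularFunctionFieldFullC E N ∧
      coeffMap (algebraMap E (AlgebraicClosure ℚ)) z = x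

theorem s18dd_inclusion_comp {E E' : IntermediateField ℚ (AlgebraicClosure ℚ)} (h : E ≤ E') :
    (algebraMap E' (AlgebraicClosure ℚ)).comp (IntermediateField.inclusion h).toRingHom =
      algebraMap E (AlgebraicClosure ℚ) := by
  ext x
  rfl

/-- enlarging the field of definition. -/
theorem s18dd_model_mono (N : ℕ) {E E' : IntermediateField ℚ (AlgebraicClosure ℚ)} (h : E ≤ E')
    (z : LaurentSeries E) (hz : z ∈ modularFunctionFieldFullC E N) :
    coeffMap (IntermediateField.inclusion h).toRingHom z ∈ modularFunctionFieldFullC E' N ∧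
      coeffMap (algebraMap E' (AlgebraicClosure ℚ))
        (coeffMap (IntermediateField.inclusion h).toRingHom z) =
        coeffMap (algebraMap E (AlgebraicClosure ℚ)) z :=
  ⟨s18dd_coeffMap_mem_full _ N hz, by rw [coeffMap_coeffMap, s18dd_inclusion_comp]⟩

theorem s18dd_model_binary (N : ℕ) {x y : LaurentSeries (AlgebraicClosure ℚ)}
    (hx : S18ddModel N x) (hy : S18ddModel N y) :
    ∃ (E : IntermediateField ℚ (AlgebraicClosure ℚ)) (_ : FiniteDimensional ℚ E)
      (z w : LaurentSeries E), z ∈ modularFunctionFieldFullC E N ∧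
        w ∈ modularFunctionFieldFullC E N ∧
        coeffMap (algebraMap E (AlgebraicClosure ℚ)) z = x ∧
        coeffMap (algebraMap E (AlgebraicClosure ℚ)) w = y := by
  obtain ⟨E₁, hfd₁, z₁, hz₁, hzx⟩ := hx
  obtain ⟨E₂, hfd₂, z₂, hz₂, hzy⟩ := hy
  haveI := hfd₁
  haveI := hfd₂
  obtain ⟨h1, h2⟩ := s18dd_model_mono N (le_sup_left : E₁ ≤ E₁ ⊔ E₂) z₁ hz₁
  obtain ⟨h3, h4⟩ := s18dd_model_mono N (le_sup_right : E₂ ≤ E₁ ⊔ E₂) z₂ hz₂
  exact ⟨E₁ ⊔ E₂, inferInstance, _, _, h1, h3, h2.trans hzx, h4.trans hzy⟩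

/-- every element of `F_ℚ̄(N)` is defined over a number field. -/
theorem s18dd_exists_model (N : ℕ) (x : LaurentSeries (AlgebraicClosure ℚ))
    (hx : x ∈ modularFunctionFieldBar N) : S18ddModel N x := by
  rw [mem_laurentBaseChange_iff] at hx
  induction hx using Subfield.closure_induction with
  | mem y hy =>
      rcases hy with ⟨c, rfl⟩ | ⟨w, hw, rfl⟩
      · haveI : Algebra.IsAlgebraic ℚ (AlgebraicClosure ℚ) := AlgebraicClosure.isAlgebraic ℚ
        have hc : IsIntegral ℚ c := Algebra.IsIntegral.isIntegral c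
        refine ⟨ℚ⟮c⟯, IntermediateField.adjoin.finiteDimensional hc,
          algebraMap _ _ (⟨c, IntermediateField.mem_adjoin_simple_self ℚ c⟩ : ℚ⟮c⟯),
          IntermediateField.algebraMap_mem _ _, ?_⟩
        rw [s18dd_coeffMap_algebraMap]
        rfl
      · refine ⟨⊥, inferInstance, coeffMap (algebraMap ℚ _) w,
          s18dd_coeffMap_mem_full _ N hw, ?_⟩
        rw [coeffMap_coeffMap]
        exact coeffMap_congr (RingHom.ext fun r => rfl) w
  | one =>
      exact ⟨⊥, inferInstance, 1, one_mem _, map_one _⟩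
  | add x y _ _ hx hy =>
      obtain ⟨E, hfd, z, w, hz, hw, rfl, rfl⟩ := s18dd_model_binary N hx hy
      exact ⟨E, hfd, z + w, add_mem hz hw, map_add _ _ _⟩
  | neg x _ hx =>
      obtain ⟨E, hfd, z, hz, rfl⟩ := hx
      exact ⟨E, hfd, -z, neg_mem hz, map_neg _ _⟩
  | inv x _ hx =>
      obtain ⟨E, hfd, z, hz, rfl⟩ := hx
      exact ⟨E, hfd, z⁻¹, inv_mem hz, map_inv₀ _ _⟩
  | mul x y _ _ hx hy =>
      obtain ⟨E, hfd, z, w, hz, hw, rfl, rfl⟩ := s18dd_model_binary N hx hy
      exact ⟨E, hfd, z * w, mul_mem hz hw, map_mul _ _ _⟩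

end Models

section Coefficients

variable (A : ValuationSubring (AlgebraicClosure ℚ))
variable (E : IntermediateField ℚ (AlgebraicClosure ℚ))

/-- `A₀ = 𝔸 ∩ E` as a valuation subring of `E` (= `s18dVal` of `Core/Spec.lean`). -/
def s18ddVal : ValuationSubring E := A.comap (algebraMap E (AlgebraicClosure ℚ))

/-- the inclusion `𝔸 ∩ E → 𝔸` (= `s18dIncl` of `Core/Spec.lean`). -/
def s18ddIncl : s18ddVal A E →+* A where
  toFun x := ⟨algebraMap E (AlgebraicClosure ℚ) x, x.2⟩
  map_one' := Subtype.ext (map_one _)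
  map_mul' x y := Subtype.ext (map_mul _ _ _)
  map_zero' := Subtype.ext (map_zero _)
  map_add' x y := Subtype.ext (map_add _ _ _)

variable {A E}

/-- a series over `𝔸` whose image over `ℚ̄` is defined over `E` has coefficients in `𝔸 ∩ E`. -/
theorem s18dd_exists_coeff (u : LaurentSeries A) (z : LaurentSeries E)
    (h : coeffMap (algebraMap E (AlgebraicClosure ℚ)) z = coeffMap A.subtype u) :
    ∃ v : LaurentSeries (s18ddVal A E), coeffMap (s18ddIncl A E) v = u ∧
      s18vIncl (s18ddVal A E) E v = z := by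
  classical
  have hmem : ∀ k : ℤ, z.coeff k ∈ s18ddVal A E := by
    intro k
    have h1 := congrArg (fun s => s.coeff k) h
    simp only [coeffMap_coeff] at h1
    change algebraMap E (AlgebraicClosure ℚ) (z.coeff k) ∈ A
    rw [h1]
    exact (u.coeff k).2
  let g : ZeroHom E (s18ddVal A E) :=
    { toFun := fun e => if h : e ∈ s18ddVal A E then ⟨e, h⟩ else 0
      map_zero' := by
        rw [dif_pos (s18ddVal A E).zero_mem]
        rfl }
  have hg : ∀ k : ℤ, ((z.map g).coeff k : E) = z.coeff k := by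
    intro k
    rw [HahnSeries.map_coeff]
    change ((if h : z.coeff k ∈ s18ddVal A E then (⟨z.coeff k, h⟩ : s18ddVal A E) else 0 :
      s18ddVal A E) : E) = _
    rw [dif_pos (hmem k)]
  refine ⟨z.map g, ?_, ?_⟩
  · refine HahnSeries.ext (funext fun k => ?_)
    rw [coeffMap_coeff]
    apply Subtype.ext
    have h1 := congrArg (fun s => s.coeff k) h
    simp only [coeffMap_coeff] at h1
    change algebraMap E (AlgebraicClosure ℚ) ((z.map g).coeff k : E) = _
    rw [hg k, h1]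
    rfl
  · refine HahnSeries.ext (funext fun k => ?_)
    rw [coeffMap_coeff]
    exact hg k

end Coefficients

section Roots

variable {K : Type*} [Field K]

/-- `p`-th roots of power series with a `p`-th power as constant coefficient (Hensel). -/
theorem s18dd_exists_root_powerSeries (p : ℕ) (hp0 : p ≠ 0) (hp : (p : K) ≠ 0)
    (h : PowerSeries K) (c : K) (hc0 : c ≠ 0) (hc : c ^ p = PowerSeries.constantCoeff h) :
    ∃ a : PowerSeries K, a ^ p = h := by
  haveI : HenselianRing (PowerSeries K) (Ideal.span {(PowerSeries.X : PowerSeries K)}) :=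
    IsAdicComplete.henselianRing _ _
  have hmonic : (X ^ p - C h : (PowerSeries K)[X]).Monic := monic_X_pow_sub_C h hp0
  have h1 : (X ^ p - C h : (PowerSeries K)[X]).eval (PowerSeries.C c) ∈
      Ideal.span {(PowerSeries.X : PowerSeries K)} := by
    rw [Ideal.mem_span_singleton, PowerSeries.X_dvd_iff, eval_sub, eval_pow, eval_X, eval_C,
      map_sub, map_pow, PowerSeries.constantCoeff_C, hc, sub_self]
  have h2 : IsUnit (Ideal.Quotient.mk (Ideal.span {(PowerSeries.X : PowerSeries K)})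
      ((X ^ p - C h : (PowerSeries K)[X]).derivative.eval (PowerSeries.C c))) := by
    apply IsUnit.map
    rw [derivative_sub, derivative_C, sub_zero, derivative_X_pow, eval_mul, eval_pow, eval_X,
      eval_C]
    have h3 : ((p : PowerSeries K)) * PowerSeries.C c ^ (p - 1) =
        PowerSeries.C ((p : K) * c ^ (p - 1)) := by
      rw [map_mul, map_pow, map_natCast]
    rw [h3]
    exact (IsUnit.mk0 _ (mul_ne_zero hp (pow_ne_zero _ hc0))).map PowerSeries.C
  obtain ⟨a, ha, -⟩ := HenselianRing.is_henselian _ hmonic (PowerSeries.C c) h1 h2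
  refine ⟨a, ?_⟩
  rw [IsRoot, eval_sub, eval_pow, eval_X, eval_C, sub_eq_zero] at ha
  exact ha

/-- `p`-th roots of Laurent series. -/
theorem s18dd_exists_root (p : ℕ) (hp0 : p ≠ 0) (hp : (p : K) ≠ 0)
    (f : LaurentSeries K) (hf : f ≠ 0) (k : ℤ) (hk : f.order = p * k) (c : K)
    (hc : c ^ p = f.coeff f.order) : ∃ y : LaurentSeries K, y ^ p = f := by
  have hlead : f.coeff f.order ≠ 0 := mt HahnSeries.coeff_order_eq_zero.mp hf
  have hc0 : c ≠ 0 := by
    rintro rfl
    rw [zero_pow hp0] at hc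
    exact hlead hc.symm
  obtain ⟨a, ha⟩ := s18dd_exists_root_powerSeries p hp0 hp f.powerSeriesPart c hc0 (by
    rw [hc, ← PowerSeries.coeff_zero_eq_constantCoeff_apply, LaurentSeries.powerSeriesPart_coeff]
    simp)
  refine ⟨HahnSeries.single k 1 * HahnSeries.ofPowerSeries ℤ K a, ?_⟩
  rw [mul_pow, HahnSeries.single_pow, one_pow, ← map_pow, ha, nsmul_eq_mul, ← hk]
  exact LaurentSeries.single_order_mul_powerSeriesPart f

end Roots

section Main

variable (A : ValuationSubring (AlgebraicClosure ℚ))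

/-- a primitive `n`-th root of unity of `ℚ̄`. -/
theorem s18dd_exists_primitiveRoot (n : ℕ) (hn : 0 < n) :
    ∃ ζ : AlgebraicClosure ℚ, IsPrimitiveRoot ζ n := by
  haveI : NeZero (n : ℚ) := ⟨Nat.cast_ne_zero.mpr hn.ne'⟩
  exact HasEnoughRootsOfUnity.exists_primitiveRoot (AlgebraicClosure ℚ) n

theorem s18dd_finiteDimensional_adjoin (c : AlgebraicClosure ℚ) : FiniteDimensional ℚ ℚ⟮c⟯ := by
  haveI : Algebra.IsAlgebraic ℚ (AlgebraicClosure ℚ) := AlgebraicClosure.isAlgebraic ℚ
  exact IntermediateField.adjoin.finiteDimensional (Algebra.IsIntegral.isIntegral c)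

/-- (package D) DESCENT OF THE DATA TO A NUMBER FIELD = `s18d_descend` of `Core/Spec.lean`. -/
theorem s18dd_descend (N : ℕ) [NeZero N] (n : ℕ) (hn : 0 < n) (p : ℕ) (hp : p.Prime)
    (u₁ u₂ : LaurentSeries A) (h₁ : S18Good N A u₁) (h₂ : S18Good N A u₂) (hu₂ : u₂ ≠ 0)
    (hord : (p : ℤ) ∣ (coeffMap A.subtype u₁).order - (coeffMap A.subtype u₂).order) :
    ∃ (E : IntermediateField ℚ (AlgebraicClosure ℚ)) (_ : FiniteDimensional ℚ E)
      (ζ : E) (_ : IsPrimitiveRoot ζ n)
      (v₁ v₂ : LaurentSeries (s18ddVal A E)) (y : LaurentSeries E),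
      coeffMap (s18ddIncl A E) v₁ = u₁ ∧ coeffMap (s18ddIncl A E) v₂ = u₂ ∧
      s18vIncl (s18ddVal A E) E v₁ ∈ modularFunctionFieldFullC E N ∧
      s18vIncl (s18ddVal A E) E v₂ ∈ modularFunctionFieldFullC E N ∧
      y ^ p * s18vIncl (s18ddVal A E) E v₂ = s18vIncl (s18ddVal A E) E v₁ := by
  -- roots upstairs
  obtain ⟨ζ₀, hζ₀⟩ := s18dd_exists_primitiveRoot n hn
  obtain ⟨c₀, hc₀⟩ := IsAlgClosed.exists_pow_nat_eq
    ((coeffMap A.subtype u₁).leadingCoeff / (coeffMap A.subtype u₂).leadingCoeff) hp.pos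
  -- models
  obtain ⟨E₀, hfd₀, z₁, z₂, hz₁, hz₂, hzu₁, hzu₂⟩ :=
    s18dd_model_binary N (s18dd_exists_model N _ h₁.1) (s18dd_exists_model N _ h₂.1)
  haveI := hfd₀
  haveI := s18dd_finiteDimensional_adjoin ζ₀
  haveI := s18dd_finiteDimensional_adjoin c₀
  -- the field
  have hE₀ : E₀ ≤ E₀ ⊔ ℚ⟮ζ₀⟯ ⊔ ℚ⟮c₀⟯ := le_sup_left.trans le_sup_left
  have hζE : ζ₀ ∈ E₀ ⊔ ℚ⟮ζ₀⟯ ⊔ ℚ⟮c₀⟯ :=
    (le_sup_right.trans le_sup_left : ℚ⟮ζ₀⟯ ≤ E₀ ⊔ ℚ⟮ζ₀⟯ ⊔ ℚ⟮c₀⟯)
      (IntermediateField.mem_adjoin_simple_self ℚ ζ₀)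
  have hcE : c₀ ∈ E₀ ⊔ ℚ⟮ζ₀⟯ ⊔ ℚ⟮c₀⟯ :=
    (le_sup_right : ℚ⟮c₀⟯ ≤ E₀ ⊔ ℚ⟮ζ₀⟯ ⊔ ℚ⟮c₀⟯) (IntermediateField.mem_adjoin_simple_self ℚ c₀)
  obtain ⟨hx₁, hxu₁⟩ := s18dd_model_mono N hE₀ z₁ hz₁
  obtain ⟨hx₂, hxu₂⟩ := s18dd_model_mono N hE₀ z₂ hz₂
  rw [hzu₁] at hxu₁
  rw [hzu₂] at hxu₂
  generalize hE : E₀ ⊔ ℚ⟮ζ₀⟯ ⊔ ℚ⟮c₀⟯ = E at hE₀ hζE hcE hx₁ hx₂ hxu₁ hxu₂
  have hfdE : FiniteDimensional ℚ E := by rw [← hE]; infer_instance
  generalize coeffMap (IntermediateField.inclusion hE₀).toRingHom z₁ = x₁ at hx₁ hxu₁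
  generalize coeffMap (IntermediateField.inclusion hE₀).toRingHom z₂ = x₂ at hx₂ hxu₂
  -- coefficients
  obtain ⟨v₁, hv₁u, hv₁x⟩ := s18dd_exists_coeff u₁ x₁ hxu₁
  obtain ⟨v₂, hv₂u, hv₂x⟩ := s18dd_exists_coeff u₂ x₂ hxu₂
  have hζ : IsPrimitiveRoot (⟨ζ₀, hζE⟩ : E) n :=
    IsPrimitiveRoot.of_map_of_injective (f := algebraMap E (AlgebraicClosure ℚ)) hζ₀
      (algebraMap E (AlgebraicClosure ℚ)).injective
  have hx₂0 : x₂ ≠ 0 := by
    rintro rfl
    apply hu₂
    have h3 : coeffMap A.subtype u₂ = 0 := by rw [← hxu₂, map_zero]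
    ext k
    have := congrArg (fun s => s.coeff k) h3
    simpa using this
  -- the root
  have hy : ∃ y : LaurentSeries E, y ^ p * x₂ = x₁ := by
    by_cases hx₁0 : x₁ = 0
    · exact ⟨0, by rw [hx₁0, zero_pow hp.ne_zero, zero_mul]⟩
    have hf0 : x₁ / x₂ ≠ 0 := div_ne_zero hx₁0 hx₂0
    have hmul : x₁ / x₂ * x₂ = x₁ := div_mul_cancel₀ _ hx₂0
    have hordf : (x₁ / x₂).order = x₁.order - x₂.order := by
      have := HahnSeries.order_mul hf0 hx₂0
      rw [hmul] at this
      omega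
    obtain ⟨k, hk⟩ := hord
    rw [← hxu₁, ← hxu₂, s18dd_order_coeffMap, s18dd_order_coeffMap] at hk
    have hlead : (x₁ / x₂).leadingCoeff * x₂.leadingCoeff = x₁.leadingCoeff := by
      rw [← HahnSeries.leadingCoeff_mul, hmul]
    have hx₂l : x₂.leadingCoeff ≠ 0 := mt HahnSeries.leadingCoeff_eq_zero.mp hx₂0
    have hc : (⟨c₀, hcE⟩ : E) ^ p = (x₁ / x₂).coeff (x₁ / x₂).order := by
      rw [← HahnSeries.leadingCoeff_eq]
      apply (algebraMap E (AlgebraicClosure ℚ)).injective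
      rw [map_pow]
      change c₀ ^ p = _
      rw [hc₀, ← hxu₁, ← hxu₂, s18dd_leadingCoeff_coeffMap, s18dd_leadingCoeff_coeffMap, ← hlead,
        map_mul, mul_div_assoc, div_self, mul_one]
      rwa [Ne, map_eq_zero_iff _ (algebraMap E (AlgebraicClosure ℚ)).injective]
    obtain ⟨y, hy⟩ := s18dd_exists_root p hp.ne_zero (Nat.cast_ne_zero.mpr hp.ne_zero)
      (x₁ / x₂) hf0 k (by rw [hordf, hk]) ⟨c₀, hcE⟩ hc
    exact ⟨y, by rw [hy, hmul]⟩
  obtain ⟨y, hy⟩ := hy
  refine ⟨E, hfdE, ⟨ζ₀, hζE⟩, hζ, v₁, v₂, y, hv₁u, hv₂u, ?_, ?_, ?_⟩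
  · rw [hv₁x]; exact hx₁
  · rw [hv₂x]; exact hx₂
  · rw [hv₁x, hv₂x]; exact hy

end Main

end Fermat.Agent.S18
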