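import Mathlib
import Fermat.Agent.S18.A.Defs
import Fermat.Agent.S18.V.Defs
import Fermat.Agent.S18.Core.Descend
import Fermat.Agent.S24.PlaceOfValuation

/-!
# S18, package D (row 404): the basic descent leaves

Statements of `Core/Spec.lean` (origin/helper6 118c9df), with `s18ddVal`, `s18ddIncl`
(`Core/Descend.lean`) = `s18dVal`, `s18dIncl` (identical bodies):

* `s18db_isDVR`     = `s18d_isDVR`     : `𝔸 ∩ E` is a DVR for a number field `E` (it is the
  localisation of `𝓞_E` at the nonzero prime `𝔪_𝔸 ∩ 𝓞_E`: a DVR `R ⊆ V ⊊ E` with `𝔪_R ⊆ 𝔪_V` is `V`);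
* `s18db_up_mem`    = `s18d_up_mem`    : `F_E(N) → F_ℚ̄(N)`;
* `s18db_res_eq_iff` = `s18d_res_eq_iff` : the residue field of `𝔸 ∩ E` embeds into that of `𝔸`;
* `s18db_cusp_place` = `s18d_cusp_place` : the `q`-adic valuation is a place of `F_ℚ̄(N)` with
  `ord = q`-order (S24 `placeOfValuation`, normalised by `1/j`).
-/

set_option autoImplicit false
set_option linter.unusedSectionVars false
set_option linter.unusedVariables false
set_option linter.style.haveILetI false
set_option synthInstance.maxHeartbeats 400000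

noncomputable section

namespace Fermat.Agent.S18

open ModularCurve AlgebraicCurve IsLocalRing Polynomial IntermediateField

section UpMem

variable (E : IntermediateField ℚ (AlgebraicClosure ℚ))

/-- `F_ℚ̄(N) ≤ laurentBaseChange ℚ̄ F_ℚ(N)`. -/
theorem s18db_full_le_bar (N : ℕ) :
    modularFunctionFieldFullC (AlgebraicClosure ℚ) N ≤ modularFunctionFieldBar N := by
  rw [modularFunctionFieldFullC, IntermediateField.adjoin_le_iff]
  rintro x ⟨d, hd, hdN, rfl⟩
  have h1 : qExpand (AlgebraicClosure ℚ) d (jqModC (AlgebraicClosure ℚ)) =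
      coeffEmb (AlgebraicClosure ℚ) (qExpand ℚ d jq) := by
    rw [coeffEmb, coeffMap_qExpand, ← jqModC_rat, coeffMap_jqModC]
  rw [h1]
  exact coeffEmb_mem_laurentBaseChange _ (jqd_mem_full N hdN)

/-- (package D) base change of the modular function field along `E ⊆ ℚ̄`
(= `s18d_up_mem` of `Core/Spec.lean`). -/
theorem s18db_up_mem (N : ℕ) [NeZero N] (x : LaurentSeries E)
    (hx : x ∈ modularFunctionFieldFullC E N) :
    coeffMap (algebraMap E (AlgebraicClosure ℚ)) x ∈ modularFunctionFieldBar N :=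
  s18db_full_le_bar N (s18dd_coeffMap_mem_full _ N hx)

end UpMem

section Cusp

variable {k : Type*} [Field k]

/-- The `X`-adic valuation of a nonzero Laurent series is `exp (-order)`. -/
theorem s18db_valuation_eq {f : LaurentSeries k} (hf : f ≠ 0) :
    (Valued.v f : WithZero (Multiplicative ℤ)) = WithZero.exp (-f.order) := by
  have h1 : (Valued.v f : WithZero (Multiplicative ℤ)) ≤ WithZero.exp (-f.order) := by
    rw [LaurentSeries.valuation_le_iff_coeff_lt_eq_zero]
    intro n hn
    exact HahnSeries.coeff_eq_zero_of_lt_order hn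
  have h2 : ¬ (Valued.v f : WithZero (Multiplicative ℤ)) ≤ WithZero.exp (-(f.order + 1)) := by
    rw [LaurentSeries.valuation_le_iff_coeff_lt_eq_zero]
    intro h
    exact hf (HahnSeries.coeff_order_eq_zero.1 (h f.order (by omega)))
  have hv0 : (Valued.v f : WithZero (Multiplicative ℤ)) ≠ 0 := (Valuation.ne_zero_iff _).2 hf
  obtain ⟨a, ha⟩ : ∃ a : ℤ, (Valued.v f : WithZero (Multiplicative ℤ)) = WithZero.exp a :=
    ⟨WithZero.log (Valued.v f), (WithZero.exp_log hv0).symm⟩
  rw [ha] at h1 h2 ⊢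
  rw [WithZero.exp_le_exp] at h1 h2
  congr 1
  omega

theorem s18db_order_jqModC : (jqModC k).order = -1 := by
  have hne : jqModC k ≠ 0 := jqModC_ne_zero_of_nontrivial k
  apply le_antisymm
  · apply HahnSeries.order_le_of_coeff_ne_zero
    rw [coeff_jqModC_neg_one]
    exact one_ne_zero
  · by_contra h
    push Not at h
    exact hne (HahnSeries.coeff_order_eq_zero.mp (coeff_jqModC_of_lt k h))

theorem s18db_order_inv {x : LaurentSeries k} (hx : x ≠ 0) : x⁻¹.order = -x.order := by
  have h2 := HahnSeries.order_mul hx (inv_ne_zero hx)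
  rw [mul_inv_cancel₀ hx, HahnSeries.order_one] at h2
  omega

theorem s18db_order_algebraMap (c : k) (hc : c ≠ 0) :
    (algebraMap k (LaurentSeries k) c).order = 0 := by
  rw [algebraMap_laurentSeries_eq_single]
  exact HahnSeries.order_single hc

/-- (package D / R) the cusp `∞`: the `q`-adic order is the order at a place of `F_ℚ̄(N)`
(= `s18d_cusp_place` of `Core/Spec.lean`). -/
theorem s18db_cusp_place (N : ℕ) [NeZero N] :
    ∃ P : Place (AlgebraicClosure ℚ) (modularFunctionFieldBar N),
      ∀ x : modularFunctionFieldBar N, x ≠ 0 →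
        P.ord x = (x : LaurentSeries (AlgebraicClosure ℚ)).order := by
  let v : Valuation (modularFunctionFieldBar N) (WithZero (Multiplicative ℤ)) :=
    (Valued.v : Valuation (LaurentSeries (AlgebraicClosure ℚ)) (WithZero (Multiplicative ℤ))).comap
      (algebraMap (modularFunctionFieldBar N) (LaurentSeries (AlgebraicClosure ℚ)))
  have hv : ∀ x : modularFunctionFieldBar N, x ≠ 0 →
      v x = WithZero.exp (-(x : LaurentSeries (AlgebraicClosure ℚ)).order) := by
    intro x hx
    have hx' : (x : LaurentSeries (AlgebraicClosure ℚ)) ≠ 0 := fun h => hx (Subtype.ext h)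
    exact s18db_valuation_eq hx'
  have hk : ∀ a : AlgebraicClosure ℚ, v (algebraMap _ (modularFunctionFieldBar N) a) ≤ 1 := by
    intro a
    rcases eq_or_ne a 0 with rfl | ha
    · simp
    · rw [hv _ (by simpa using ha)]
      change WithZero.exp (-(algebraMap (AlgebraicClosure ℚ)
        (LaurentSeries (AlgebraicClosure ℚ)) a).order) ≤ 1
      rw [s18db_order_algebraMap a ha, neg_zero, WithZero.exp_zero]
  -- `j`
  let j : modularFunctionFieldBar N :=
    ⟨jqModC (AlgebraicClosure ℚ), s18db_full_le_bar N (jqModC_mem_full _ N)⟩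
  have hj0 : j ≠ 0 := by
    intro h
    exact jqModC_ne_zero_of_nontrivial (AlgebraicClosure ℚ) (congrArg Subtype.val h)
  have hvj : v j⁻¹ = WithZero.exp (-1 : ℤ) := by
    rw [hv _ (inv_ne_zero hj0)]
    change WithZero.exp (-(jqModC (AlgebraicClosure ℚ))⁻¹.order) = _
    rw [s18db_order_inv (jqModC_ne_zero_of_nontrivial _), s18db_order_jqModC, neg_neg]
  have hnt : ∃ x : modularFunctionFieldBar N, x ≠ 0 ∧ v x ≠ 1 := by
    refine ⟨j⁻¹, inv_ne_zero hj0, ?_⟩
    rw [hvj, ← WithZero.exp_zero, Ne, WithZero.exp_inj]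
    omega
  refine ⟨Fermat.Agent.S24.placeOfValuation v hk hnt, fun x hx => ?_⟩
  rw [Fermat.Agent.S24.ord_placeOfValuation_of_exists v hk hnt ⟨j⁻¹, hvj⟩ x hx, hv x hx,
    WithZero.log_exp, neg_neg]

end Cusp

section Residue

variable (A : ValuationSubring (AlgebraicClosure ℚ))
variable (E : IntermediateField ℚ (AlgebraicClosure ℚ))

theorem s18db_isUnit_iff (a : s18ddVal A E) : IsUnit a ↔ IsUnit (s18ddIncl A E a) := by
  constructor
  · exact fun h => h.map _
  · intro h
    obtain ⟨b, hb⟩ := h.exists_right_inv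
    have hb' : algebraMap E (AlgebraicClosure ℚ) (a : E) * (b : AlgebraicClosure ℚ) = 1 :=
      congrArg Subtype.val hb
    have ha0 : (a : E) ≠ 0 := by
      intro h0
      rw [h0, map_zero, zero_mul] at hb'
      exact zero_ne_one hb'
    have hinv : ((a : E)⁻¹) ∈ s18ddVal A E := by
      change algebraMap E (AlgebraicClosure ℚ) ((a : E)⁻¹) ∈ A
      rw [map_inv₀, ← eq_inv_of_mul_eq_one_right hb']
      exact b.2
    exact IsUnit.of_mul_eq_one ⟨(a : E)⁻¹, hinv⟩ (Subtype.ext (mul_inv_cancel₀ ha0))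

theorem s18db_residue_eq_zero_iff (a : s18ddVal A E) :
    residue (s18ddVal A E) a = 0 ↔ residue A (s18ddIncl A E a) = 0 := by
  rw [residue_eq_zero_iff, residue_eq_zero_iff, mem_maximalIdeal, mem_maximalIdeal,
    mem_nonunits_iff, mem_nonunits_iff, s18db_isUnit_iff]

/-- (package D) the residue field of `𝔸 ∩ E` embeds into the residue field of `𝔸`
(= `s18d_res_eq_iff` of `Core/Spec.lean`). -/
theorem s18db_res_eq_iff (v w : LaurentSeries (s18ddVal A E)) :
    s18vRes (s18ddVal A E) v = s18vRes (s18ddVal A E) w ↔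
      coeffMap (residue A) (coeffMap (s18ddIncl A E) v) =
        coeffMap (residue A) (coeffMap (s18ddIncl A E) w) := by
  have key : ∀ k : ℤ, residue (s18ddVal A E) (v.coeff k) = residue (s18ddVal A E) (w.coeff k) ↔
      residue A (s18ddIncl A E (v.coeff k)) = residue A (s18ddIncl A E (w.coeff k)) := by
    intro k
    rw [← sub_eq_zero, ← map_sub, s18db_residue_eq_zero_iff, map_sub, map_sub, sub_eq_zero]
  constructor
  · intro h
    refine HahnSeries.ext (funext fun k => ?_)
    rw [coeffMap_coeff, coeffMap_coeff, coeffMap_coeff, coeffMap_coeff]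
    refine (key k).mp ?_
    have := congrArg (fun s => s.coeff k) h
    simpa using this
  · intro h
    refine HahnSeries.ext (funext fun k => ?_)
    rw [coeffMap_coeff, coeffMap_coeff]
    refine (key k).mpr ?_
    have := congrArg (fun s => s.coeff k) h
    simpa using this

end Residue

section DVR

variable (A : ValuationSubring (AlgebraicClosure ℚ))
variable (E : IntermediateField ℚ (AlgebraicClosure ℚ))

open NumberField in
/-- the ring of integers of `E` lies in `𝔸 ∩ E`. -/
theorem s18db_integer_mem [NumberField E] (x : 𝓞 E) : (x : E) ∈ s18ddVal A E := by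
  have h1 : IsIntegral ℤ (x : E) := RingOfIntegers.isIntegral_coe x
  have h2 : IsIntegral (s18ddVal A E) (x : E) := h1.tower_top
  obtain ⟨y, hy⟩ := IsIntegrallyClosed.algebraMap_eq_of_integral h2
  rw [← hy]
  exact y.2

open NumberField in
/-- the inclusion `𝓞_E → 𝔸 ∩ E`. -/
def s18dbInt [NumberField E] : 𝓞 E →+* s18ddVal A E where
  toFun x := ⟨(x : E), s18db_integer_mem A E x⟩
  map_one' := Subtype.ext (map_one _)
  map_mul' x y := Subtype.ext (map_mul _ _ _)
  map_zero' := Subtype.ext (map_zero _)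
  map_add' x y := Subtype.ext (map_add _ _ _)

open NumberField in
/-- (package D) `𝔸 ∩ E` is a DVR for a number field `E` (= `s18d_isDVR` of `Core/Spec.lean`). -/
theorem s18db_isDVR {ℓ : ℕ} [Fact ℓ.Prime] (hA : A.LiesOverPrime ℓ) [FiniteDimensional ℚ E] :
    IsDiscreteValuationRing (s18ddVal A E) := by
  haveI : NumberField E := { to_charZero := inferInstance, to_finiteDimensional := inferInstance }
  have hιinj : Function.Injective (s18dbInt A E) := by
    intro x y h
    have h1 : ((s18dbInt A E x : s18ddVal A E) : E) = ((s18dbInt A E y : s18ddVal A E) : E) := by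
      rw [h]
    exact RingOfIntegers.ext h1
  -- `ℓ` is a non-unit
  have hℓ : ((ℓ : ℕ) : s18ddVal A E) ∈ maximalIdeal (s18ddVal A E) := by
    rw [mem_maximalIdeal, mem_nonunits_iff, s18db_isUnit_iff, map_natCast]
    intro hu
    have h2 : ((ℓ : ℕ) : AlgebraicClosure ℚ) ∈ A.nonunits := hA
    rw [ValuationSubring.mem_nonunits_iff_exists_mem_maximalIdeal] at h2
    obtain ⟨hm, hmem⟩ := h2
    rw [mem_maximalIdeal, mem_nonunits_iff] at hmem
    exact hmem (by convert hu using 1; exact Subtype.ext (by simp))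
  -- the prime
  let 𝔭 : Ideal (𝓞 E) := Ideal.comap (s18dbInt A E) (maximalIdeal (s18ddVal A E))
  haveI h𝔭prime : 𝔭.IsPrime := Ideal.comap_isPrime _ _
  have h𝔭 : 𝔭 ≠ ⊥ := by
    intro h
    have h1 : ((ℓ : ℕ) : 𝓞 E) ∈ 𝔭 := by
      rw [Ideal.mem_comap, map_natCast]
      exact hℓ
    rw [h, Ideal.mem_bot] at h1
    exact (Nat.cast_ne_zero.mpr (Fact.out : ℓ.Prime).ne_zero) h1
  have hmem𝔭 : ∀ a : 𝓞 E, a ∈ 𝔭 ↔ s18dbInt A E a ∈ maximalIdeal (s18ddVal A E) := fun a => Iff.rfl
  have hunit : ∀ s : 𝓞 E, s ∉ 𝔭 → IsUnit (s18dbInt A E s) := by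
    intro s hs
    by_contra h
    exact hs ((hmem𝔭 s).mpr h)
  -- every element of `𝔸 ∩ E` is a fraction with denominator outside `𝔭`
  have hsurj : ∀ x : s18ddVal A E, ∃ a s : 𝓞 E, s ∉ 𝔭 ∧ x * s18dbInt A E s = s18dbInt A E a := by
    intro x
    haveI : IsDiscreteValuationRing (Localization.AtPrime 𝔭) :=
      IsLocalization.AtPrime.isDiscreteValuationRing_of_dedekind_domain (𝓞 E) h𝔭 _
    have hg : ∀ y : 𝔭.primeCompl, IsUnit (algebraMap (𝓞 E) E y) := by
      intro y
      refine IsUnit.mk0 _ ?_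
      rw [Ne, map_eq_zero_iff _ (IsFractionRing.injective (𝓞 E) E)]
      intro h0
      exact y.2 (h0 ▸ 𝔭.zero_mem)
    letI : Algebra (Localization.AtPrime 𝔭) E :=
      (IsLocalization.lift (M := 𝔭.primeCompl) (S := Localization.AtPrime 𝔭) hg).toAlgebra
    haveI : IsScalarTower (𝓞 E) (Localization.AtPrime 𝔭) E :=
      IsScalarTower.of_algebraMap_eq (fun a => (IsLocalization.lift_eq hg a).symm)
    haveI : IsFractionRing (Localization.AtPrime 𝔭) E :=
      IsFractionRing.isFractionRing_of_isDomain_of_isLocalization 𝔭.primeCompl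
        (Localization.AtPrime 𝔭) E
    have hfrac : ∀ (a : 𝓞 E) (s : 𝔭.primeCompl),
        algebraMap (Localization.AtPrime 𝔭) E (IsLocalization.mk' (Localization.AtPrime 𝔭) a s) *
          algebraMap (𝓞 E) E s = algebraMap (𝓞 E) E a := by
      intro a s
      have h1 := IsLocalization.mk'_spec (Localization.AtPrime 𝔭) a s
      have h2 := congrArg (algebraMap (Localization.AtPrime 𝔭) E) h1
      rwa [map_mul, ← IsScalarTower.algebraMap_apply, ← IsScalarTower.algebraMap_apply] at h2
    rcases ValuationRing.isInteger_or_isInteger (Localization.AtPrime 𝔭) (x : E) with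
      ⟨r, hr⟩ | ⟨r, hr⟩
    · obtain ⟨a, s, rfl⟩ := IsLocalization.exists_mk'_eq 𝔭.primeCompl r
      refine ⟨a, s, s.2, Subtype.ext ?_⟩
      change (x : E) * algebraMap (𝓞 E) E s = algebraMap (𝓞 E) E a
      rw [← hr]
      exact hfrac a s
    · obtain ⟨a, s, rfl⟩ := IsLocalization.exists_mk'_eq 𝔭.primeCompl r
      have h1 : (x : E)⁻¹ * algebraMap (𝓞 E) E s = algebraMap (𝓞 E) E a := by
        rw [← hr]
        exact hfrac a s
      by_cases hx0 : x = 0
      · exact ⟨0, 1, fun h => h𝔭prime.ne_top ((Ideal.eq_top_iff_one _).mpr h),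
          by rw [hx0, map_zero, zero_mul]⟩
      have hx0' : (x : E) ≠ 0 := fun h => hx0 (Subtype.ext h)
      have h2 : (x : E) * algebraMap (𝓞 E) E a = algebraMap (𝓞 E) E s := by
        rw [← h1, ← mul_assoc, mul_inv_cancel₀ hx0', one_mul]
      by_cases ha : a ∈ 𝔭
      · exfalso
        have h3 : s18dbInt A E s = x * s18dbInt A E a := Subtype.ext h2.symm
        have h4 : s18dbInt A E s ∈ maximalIdeal (s18ddVal A E) := by
          rw [h3]
          exact Ideal.mul_mem_left _ _ ((hmem𝔭 a).mp ha)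
        exact s.2 ((hmem𝔭 s).mpr h4)
      · exact ⟨s, a, ha, Subtype.ext h2⟩
  letI : Algebra (𝓞 E) (s18ddVal A E) := (s18dbInt A E).toAlgebra
  haveI : IsLocalization.AtPrime (s18ddVal A E) 𝔭 :=
    { map_units := fun y => hunit y y.2
      surj := fun x => by
        obtain ⟨a, s, hs, hxs⟩ := hsurj x
        exact ⟨(a, ⟨s, hs⟩), hxs⟩
      exists_of_eq := fun {a b} hab => ⟨1, by rw [hιinj hab]⟩ }
  exact IsLocalization.AtPrime.isDiscreteValuationRing_of_dedekind_domain (𝓞 E) h𝔭 _

end DVR

end Fermat.Agent.S18
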