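import Mathlib
import Fermat.Agent.S18.A.Defs
import Fermat.Agent.S18.V.Defs
import Fermat.Agent.S18.V.Spec
import Fermat.Agent.S18.Core.Defs
import Fermat.Agent.S18.Core.NumberField
import Fermat.Agent.S18.Core.Descend
import Fermat.Agent.S18.Core.DescentBasic
import Fermat.Agent.S18.RH.Main

/-!
# S18 : the core claim for `ℓ ≥ 5` (`s18_core_large`) from the packages V, C, D, RH
(assembly; all leaves proved in the imported files)

* `s18c_numberfield`  (package C): the number-field core.  `A₀` a DVR, `F ⊆ L₀((q))` with a good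
  coordinate `t`; `f = u₁/u₂ ≡ 1 mod ϖ`, `y ∈ L₀((q))`, `y^p = f`; if `F(y)/L₀(t)` satisfies the
  ramification hypotheses of theorem (T) in both charts then `y ∈ F`.
* `s18v_coord_j`      (package V): `j` is a good coordinate of `F_{L₀}(M)` when `ℓ ∤ M`.
* `s18d_isDVR`, `s18d_descend`, `s18d_up_mem`, … (package D): descent from `ℚ̄` to a number field.
* `s18_RH`            (packages R + U + D): the ramification hypotheses for `F_E(N)(y) / E(j)`, `ℓ ≥ 5`.
* the cases `ℓ = 2, 3` : `Core/Small.lean`; the final case split: `Core/Main.lean`.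
-/

set_option autoImplicit false
set_option linter.unusedSectionVars false
set_option synthInstance.maxHeartbeats 400000

noncomputable section

namespace Fermat.Agent.S18

open ModularCurve AlgebraicCurve IsLocalRing Polynomial IntermediateField

/-! ### The number-field core (abstract DVR) -/

section NumberField

variable {A₀ : Type*} [CommRing A₀] [IsDomain A₀] [IsDiscreteValuationRing A₀] [CharZero A₀]
variable {L₀ : Type*} [Field L₀] [Algebra A₀ L₀] [IsFractionRing A₀ L₀]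
variable {ϖ : A₀}

/-- (package C) THE NUMBER-FIELD CORE.
Proof: `B = s18vO F` is the integral closure of `A₀[t]_(ϖ)` in `F` (`hcoord.intLoc_eq`), a DVR with
uniformiser `ϖ`; `f = u₁/u₂ ∈ B`, `f ≡ 1 mod ϖ B`.  Suppose `y ∉ F`; then `Y^p - f` is irreducible
over `F`, `F'' = F(y)` has degree `p`, `L₀` is algebraically closed in `F'' ⊆ L₀((q))`,
`F''/L₀(t)` is Gauss-self-dual (`hcoord.selfDual` + `Tr_{F''/F}(y^i) = 0` for `0 < i < p`, `p` and `f`
units), so theorem (T) (`s18t_main`) applies: `P''/ϖ` has no nontrivial idempotent.  But the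
Lagrange idempotents `e_ζ = ∏_{ζ' ≠ ζ} (y - ζ')/(ζ - ζ')` are idempotent mod `ϖ`, and for every `ζ`
there is a prime of `P''` containing `ϖ` and `y - ζ` (lying over): contradiction as `p ≥ 2`. -/
theorem s18c_numberfield (hϖ : Irreducible ϖ)
    (F : IntermediateField L₀ (LaurentSeries L₀)) (t : F) (hcoord : S18Coord hϖ F t)
    (p : ℕ) (hp : p.Prime) (hpu : IsUnit (p : A₀)) (ζ : L₀) (hζ : IsPrimitiveRoot ζ p)
    (u₁ u₂ : LaurentSeries A₀) (h₁ : s18vIncl A₀ L₀ u₁ ∈ F) (h₂ : s18vIncl A₀ L₀ u₂ ∈ F)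
    (hred : s18vRes A₀ u₁ = s18vRes A₀ u₂) (hne : s18vRes A₀ u₁ ≠ 0)
    (y : LaurentSeries L₀) (hy : y ^ p * s18vIncl A₀ L₀ u₂ = s18vIncl A₀ L₀ u₁)
    (S S' : Finset A₀)
    (h0 : S18Chart A₀ L₀ ϖ (s18cLift F y t) S)
    (hinf : S18Chart A₀ L₀ ϖ (s18cLift F y t)⁻¹ S') :
    y ∈ F :=
  s18cn_numberfield hϖ F t hcoord p hp hpu ζ hζ u₁ u₂ h₁ h₂ hred hne y hy S S' h0 hinf

/-- (package V) `j` is a good coordinate of `F_{L₀}(M)` when the residue characteristic `ℓ` does not
divide `M`: the Gauss valuation of `L₀(j)` has a unique, unramified extension to `F_{L₀}(M)`, namely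
the Gauss valuation w.r.t. `q`.
Proof: `[F_{L₀}(M) : L₀(j)] ≤ ψ(M)` (S24 `finrank_jBar` + linear disjointness of constants),
`[k₀(j̄, j̄_M) : k₀(j̄)] ≥ ψ(M)` and separable (S28 `key_irreducible` / `key_abstract`), and the
elementary fundamental inequality `f ≤ n` for the Gauss ring. -/
theorem s18v_coord_j (hϖ : Irreducible ϖ) {ℓ : ℕ} [Fact ℓ.Prime]
    (hℓ : (ℓ : A₀) ∈ maximalIdeal A₀) (M : ℕ) [NeZero M] (hℓM : ¬ ℓ ∣ M) :
    S18Coord hϖ (modularFunctionFieldFullC L₀ M) ⟨jqModC L₀, jqModC_mem_full L₀ M⟩ :=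
  s18v_coord_j' hϖ hℓ M hℓM

end NumberField


/-! ### Descent from `ℚ̄` to a number field -/

section Descent

variable (A : ValuationSubring (AlgebraicClosure ℚ))
variable (E : IntermediateField ℚ (AlgebraicClosure ℚ))

/-- (package D) `𝔸 ∩ E` is a DVR for a number field `E`. -/
theorem s18d_isDVR {ℓ : ℕ} [Fact ℓ.Prime] (hA : A.LiesOverPrime ℓ) [FiniteDimensional ℚ E] :
    IsDiscreteValuationRing (s18dVal A E) :=
  s18db_isDVR A E hA

/-- (package D) base change of the modular function field along `E ⊆ ℚ̄`. -/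
theorem s18d_up_mem (N : ℕ) [NeZero N] (x : LaurentSeries E)
    (hx : x ∈ modularFunctionFieldFullC E N) : s18dUp E x ∈ modularFunctionFieldBar N :=
  s18r_up_mem E N x hx

/-- (package D) the residue field of `𝔸 ∩ E` embeds into the residue field of `𝔸`: reductions can
be compared. -/
theorem s18d_res_eq_iff (v w : LaurentSeries (s18dVal A E)) :
    s18vRes (s18dVal A E) v = s18vRes (s18dVal A E) w ↔
      coeffMap (residue A) (coeffMap (s18dIncl A E) v) =
        coeffMap (residue A) (coeffMap (s18dIncl A E) w) :=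
  s18db_res_eq_iff A E v w

/-- (package D / R) the cusp `∞`: the `q`-adic order is the order at a place of `F_ℚ̄(N)`. -/
theorem s18d_cusp_place (N : ℕ) [NeZero N] :
    ∃ P : Place (AlgebraicClosure ℚ) (modularFunctionFieldBar N),
      ∀ x : modularFunctionFieldBar N, x ≠ 0 → P.ord x = (x : LaurentSeries (AlgebraicClosure ℚ)).order :=
  s18db_cusp_place N

/-- (package D) descent of the data to a number field `E`, with enough roots of unity, and a `p`-th
root `y ∈ E((q))` of `u₁/u₂`.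
Proof: `F_ℚ̄(N) = ⋃_E F_E(N)` (closure induction); coefficients in `𝔸 ∩ E`; the leading coefficient
of `u₁/u₂` gets a `p`-th root in a bigger `E`; `(1 + x)^{1/p}` exists in `E[[q]]`
(Hensel: `isAdicComplete_mvPowerSeries` of S53, or `PowerSeries.binomialSeries`). -/
theorem s18d_descend (N : ℕ) [NeZero N] (n : ℕ) (hn : 0 < n) (p : ℕ) (hp : p.Prime)
    (u₁ u₂ : LaurentSeries A) (h₁ : S18Good N A u₁) (h₂ : S18Good N A u₂) (hu₂ : u₂ ≠ 0)
    (hord : (p : ℤ) ∣ (coeffMap A.subtype u₁).order - (coeffMap A.subtype u₂).order) :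
    ∃ (E : IntermediateField ℚ (AlgebraicClosure ℚ)) (_ : FiniteDimensional ℚ E)
      (ζ : E) (_ : IsPrimitiveRoot ζ n)
      (v₁ v₂ : LaurentSeries (s18dVal A E)) (y : LaurentSeries E),
      coeffMap (s18dIncl A E) v₁ = u₁ ∧ coeffMap (s18dIncl A E) v₂ = u₂ ∧
      s18vIncl (s18dVal A E) E v₁ ∈ modularFunctionFieldFullC E N ∧
      s18vIncl (s18dVal A E) E v₂ ∈ modularFunctionFieldFullC E N ∧
      y ^ p * s18vIncl (s18dVal A E) E v₂ = s18vIncl (s18dVal A E) E v₁ :=
  s18dd_descend A N n hn p hp u₁ u₂ h₁ h₂ hu₂ hord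

end Descent


/-! ### Assembly of the core claim -/

section Assembly

variable (N : ℕ) [NeZero N] {ℓ : ℕ} [Fact ℓ.Prime]
variable (A : ValuationSubring (AlgebraicClosure ℚ))

set_option maxHeartbeats 1000000 in
/-- `ℓ ≥ 5`. -/
theorem s18_core_large (hℓN : ¬ ℓ ∣ N) (hA : A.LiesOverPrime ℓ) (hℓ5 : 5 ≤ ℓ)
    (p : ℕ) (hp : p.Prime) (hpℓ : p ≠ ℓ)
    (u₁ u₂ : LaurentSeries A) (h₁ : S18Good N A u₁) (h₂ : S18Good N A u₂)
    (hred : coeffMap (residue A) u₁ = coeffMap (residue A) u₂)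
    (hne : coeffMap (residue A) u₁ ≠ 0)
    (hdiv : ∀ P : Place (AlgebraicClosure ℚ) (modularFunctionFieldBar N),
      (p : ℤ) ∣ P.ord h₁.gen - P.ord h₂.gen) :
    ∃ g : modularFunctionFieldBar N, g ^ p * h₂.gen = h₁.gen := by
  have hne2 : coeffMap (residue A) u₂ ≠ 0 := hred ▸ hne
  have hu₁ : u₁ ≠ 0 := fun h => hne (by rw [h, map_zero])
  have hu₂ : u₂ ≠ 0 := fun h => hne2 (by rw [h, map_zero])
  have hinj : Function.Injective (coeffMap A.subtype) := by
    intro x y hxy
    ext k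
    have := congrArg (fun s => HahnSeries.coeff s k) hxy
    simpa using this
  have hg₁ : h₁.gen ≠ 0 := fun h => hu₁ (hinj (by rw [map_zero]; exact congrArg Subtype.val h))
  have hg₂ : h₂.gen ≠ 0 := fun h => hu₂ (hinj (by rw [map_zero]; exact congrArg Subtype.val h))
  -- the cusp `∞`
  obtain ⟨Pinf, hPinf⟩ := s18d_cusp_place N
  have hord : (p : ℤ) ∣ (coeffMap A.subtype u₁).order - (coeffMap A.subtype u₂).order := by
    have := hdiv Pinf
    rwa [hPinf _ hg₁, hPinf _ hg₂] at this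
  -- descent
  have hn : 0 < 6 * N * p := Nat.mul_pos (Nat.mul_pos (by norm_num) (NeZero.pos N)) hp.pos
  obtain ⟨E, hfin, ζ, hζ, v₁, v₂, y, e₁, e₂, m₁, m₂, hy⟩ :=
    s18d_descend A N (6 * N * p) hn p hp u₁ u₂ h₁ h₂ hu₂ hord
  haveI := hfin
  haveI : IsDiscreteValuationRing (s18dVal A E) := s18d_isDVR A E hA
  obtain ⟨ϖ, hϖ⟩ := IsDiscreteValuationRing.exists_irreducible (s18dVal A E)
  haveI : CharZero (s18dVal A E) := ⟨fun a b h => by
    have h1 := congrArg (fun x : s18dVal A E => (x : E)) h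
    simpa using h1⟩
  have hζp : IsPrimitiveRoot (ζ ^ (6 * N)) p :=
    hζ.pow hn (by ring)
  have hζ6 : IsPrimitiveRoot (ζ ^ p) (6 * N) :=
    hζ.pow hn (by ring)
  have hv₂0 : v₂ ≠ 0 := fun h => hu₂ (by rw [← e₂, h, map_zero])
  have hℓmem := s18d_natCast_mem (ℓ := ℓ) A E hA
  -- `p` is a unit
  have hpu : IsUnit ((p : ℕ) : s18dVal A E) := by
    have hcop : Nat.Coprime p ℓ := (Nat.coprime_primes hp Fact.out).mpr hpℓ
    obtain ⟨a, b, hab⟩ : ∃ a b : ℤ, a * p + b * ℓ = 1 := by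
      have := Int.gcd_eq_gcd_ab p ℓ
      rw [Int.gcd_natCast_natCast, hcop.gcd_eq_one] at this
      exact ⟨Int.gcdA p ℓ, Int.gcdB p ℓ, by push_cast at this; linarith⟩
    have h1 : ((a : s18dVal A E)) * (p : s18dVal A E) = 1 - (b : s18dVal A E) * (ℓ : s18dVal A E) := by
      have := congrArg (Int.cast : ℤ → s18dVal A E) hab
      push_cast at this
      linear_combination this
    have h2 : IsUnit (1 - (b : s18dVal A E) * (ℓ : s18dVal A E)) := by
      by_contra hnu
      have h3 : (1 - (b : s18dVal A E) * (ℓ : s18dVal A E)) ∈ maximalIdeal (s18dVal A E) := hnu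
      have h4 : (b : s18dVal A E) * (ℓ : s18dVal A E) ∈ maximalIdeal (s18dVal A E) :=
        Ideal.mul_mem_left _ _ hℓmem
      have h5 := Ideal.add_mem _ h3 h4
      rw [sub_add_cancel] at h5
      exact (Ideal.ne_top_iff_one _).mp (maximalIdeal.isMaximal _).ne_top h5
    rw [← h1] at h2
    exact isUnit_of_mul_isUnit_right h2
  -- reductions
  have hredv : s18vRes (s18dVal A E) v₁ = s18vRes (s18dVal A E) v₂ := by
    rw [s18d_res_eq_iff, e₁, e₂]; exact hred
  have hnev : s18vRes (s18dVal A E) v₁ ≠ 0 := by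
    intro h0
    have := (s18d_res_eq_iff A E v₁ 0).mp (by rw [h0, map_zero])
    rw [e₁, map_zero, map_zero] at this
    exact hne this
  -- the ramification hypotheses
  obtain ⟨S, S', h0, hinf⟩ := s18_RH A E N hℓN hA hℓ5 ϖ hϖ (ζ ^ p) hζ6 p hp hpℓ v₁ v₂ m₁ m₂ hv₂0 y hy
    (by
      intro k₁ k₂ P
      have q₁ : (⟨_, k₁⟩ : modularFunctionFieldBar N) = h₁.gen :=
        Subtype.ext (by
          show s18dUp E (s18vIncl (s18dVal A E) E v₁) = coeffMap A.subtype u₁
          rw [s18d_up_incl, e₁])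
      have q₂ : (⟨_, k₂⟩ : modularFunctionFieldBar N) = h₂.gen :=
        Subtype.ext (by
          show s18dUp E (s18vIncl (s18dVal A E) E v₂) = coeffMap A.subtype u₂
          rw [s18d_up_incl, e₂])
      rw [q₁, q₂]
      exact hdiv P)
  have hcoord := s18v_coord_j (L₀ := E) hϖ hℓmem N hℓN
  have hyF := s18c_numberfield hϖ _ _ hcoord p hp hpu (ζ ^ (6 * N)) hζp v₁ v₂ m₁ m₂ hredv hnev y hy
    S S' h0 hinf
  refine ⟨⟨s18dUp E y, s18d_up_mem E N y hyF⟩, Subtype.ext ?_⟩
  show s18dUp E y ^ p * coeffMap A.subtype u₂ = coeffMap A.subtype u₁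
  have := congrArg (s18dUp E) hy
  rw [map_mul, map_pow, s18d_up_incl, s18d_up_incl, e₁, e₂] at this
  exact this

end Assembly

end Fermat.Agent.S18
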