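import Mathlib
import Fermat.Agent.S18.Core.Spec
import Fermat.Agent.S18.Core.SmallDefs
import Fermat.Agent.S18.Core.LevelDescent
import Fermat.Agent.S18.H.Coord
import Fermat.Agent.S18.H.Main
import Fermat.Agent.S18.RH.Small

/-!
# S18 : the primes `ℓ = 2, 3` (assembly; all leaves proved in the imported files)

Auxiliary level `a = 3` for `ℓ = 2`, `a = 2` for `ℓ = 3`; `M = a * N`.  The coordinate is the
Hauptmodul `h_a = q⁻¹ ∏ (1 - qⁿ)^e / (1 - q^{an})^e`, `e = 24/(a-1)`, of `Γ₀(a)`: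
`j h² = (h + 256)³` (`a = 2`),  `j h³ = (h + 27)(h + 243)³` (`a = 3`).
`X₀(M) → X₀(a)` is tamely ramified in characteristic `ℓ` (no elliptic point of order `ℓ` on
`X₀(a)`), so theorem (T) applies to `F_E(M)(y) / E(h)`; then one descends from level `M` to level
`N` with the uniqueness of the Gauss valuation.
-/

set_option autoImplicit false
set_option linter.unusedSectionVars false
set_option synthInstance.maxHeartbeats 400000

noncomputable section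

namespace Fermat.Agent.S18

open ModularCurve AlgebraicCurve IsLocalRing Polynomial IntermediateField

section NumberField

variable {A₀ : Type*} [CommRing A₀] [IsDomain A₀] [IsDiscreteValuationRing A₀] [CharZero A₀]
variable {L₀ : Type*} [Field L₀] [Algebra A₀ L₀] [IsFractionRing A₀ L₀]
variable {ϖ : A₀}

/-- (package H / V) `h_a` is a good coordinate of `F_{L₀}(M)`, `a ∣ M`, `ℓ ∤ M`.
Proof from `s18v_coord_j` at level `M`: `A₀[j]_(ϖ) ⊆ A₀[h]_(ϖ) ⊆ s18vO F` (`j = R_a(h)`, `h` an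
integral series with pole), `h` is integral over `A₀[j]` (monic equation), so the integral closures
coincide; self-duality over `L₀(h)` from self-duality over `L₀(j)` by transitivity of the trace. -/
theorem s18h_coord [CharZero L₀] (hϖ : Irreducible ϖ) {ℓ : ℕ} [Fact ℓ.Prime]
    (hℓ : (ℓ : A₀) ∈ maximalIdeal A₀) (a : ℕ) [NeZero a] (ha : a = 2 ∨ a = 3)
    (M : ℕ) [NeZero M] (haM : a ∣ M) (hℓM : ¬ ℓ ∣ M) :
    S18Coord hϖ (modularFunctionFieldFullC L₀ M)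
      ⟨s18hq a (s18hExp a) L₀, s18h_mem L₀ a ha M haM⟩ :=
  s18hk_coord hϖ a ha M s18h_identity_two s18h_identity_three (s18h_mem L₀ a ha M haM)
    (s18v_coord_j hϖ hℓ M hℓM)

/-- (package C) DESCENT OF THE LEVEL: if `t` is a good coordinate of `F₁ ⊆ F₂` (both), `f = u₁/u₂`
in `F₁` with `f ≡ 1 mod ϖ`, and `y ∈ F₂`, `y^p = f`, then `y ∈ F₁`.
Proof: same Lagrange-idempotent / lying-over argument as `s18c_numberfield` with `P''` replaced by
the local ring `s18vO F₂` (integral over `s18vO F₁`, unique prime above `ϖ`). -/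
theorem s18c_level_descent (hϖ : Irreducible ϖ)
    (F₁ F₂ : IntermediateField L₀ (LaurentSeries L₀)) (hle : F₁ ≤ F₂) (t : F₁)
    (hc₁ : S18Coord hϖ F₁ t) (hc₂ : S18Coord hϖ F₂ ⟨t, hle t.2⟩)
    (p : ℕ) (hp : p.Prime) (hpu : IsUnit (p : A₀)) (ζ : L₀) (hζ : IsPrimitiveRoot ζ p)
    (u₁ u₂ : LaurentSeries A₀) (h₁ : s18vIncl A₀ L₀ u₁ ∈ F₁) (h₂ : s18vIncl A₀ L₀ u₂ ∈ F₁)
    (hred : s18vRes A₀ u₁ = s18vRes A₀ u₂) (hne : s18vRes A₀ u₁ ≠ 0)
    (y : LaurentSeries L₀) (hy : y ^ p * s18vIncl A₀ L₀ u₂ = s18vIncl A₀ L₀ u₁)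
    (hyF : y ∈ F₂) : y ∈ F₁ :=
  s18cl_level_descent hϖ F₁ F₂ hle t hc₁ hc₂ p hp hpu ζ hζ u₁ u₂ h₁ h₂ hred hne y hy hyF

end NumberField

section Descent

variable (A : ValuationSubring (AlgebraicClosure ℚ))
variable (E : IntermediateField ℚ (AlgebraicClosure ℚ))

/-- (packages R' + U + D) the ramification hypotheses for `F_E(aN)(y) / E(h_a)`, `ℓ ∈ {2, 3}`,
`a = 5 - ℓ`.  Proof: as `s18_RH`, with the ramification of `F_ℚ̄(M)/ℚ̄(h)` deduced from that of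
`F_ℚ̄(M)/ℚ̄(j)` (S24) and the explicit `j = R_a(h)`:
`ℓ = 3`: `j - 1728 = (h + 64)(h - 512)²/h²`, branch points of `X₀(M)/X₀(2)`: `h = 0, ∞, -64`;
`ℓ = 2`: `j - 1728 = (h² - 486 h - 19683)²/h³`, `j = (h+27)(h+243)³/h³`: `h = 0, ∞, -27`. -/
theorem s18_RH_small (N : ℕ) [NeZero N] {ℓ : ℕ} [Fact ℓ.Prime] (hℓN : ¬ ℓ ∣ N)
    (hA : A.LiesOverPrime ℓ) (a : ℕ) [NeZero a] (ha : (ℓ = 2 ∧ a = 3) ∨ (ℓ = 3 ∧ a = 2))
    (ha23 : a = 2 ∨ a = 3)
    [FiniteDimensional ℚ E]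
    [IsDiscreteValuationRing (s18dVal A E)] (ϖ : s18dVal A E) (hϖ : Irreducible ϖ)
    (ζ : E) (hζ : IsPrimitiveRoot ζ (6 * (a * N)))
    (p : ℕ) (hp : p.Prime) (hpℓ : p ≠ ℓ)
    (v₁ v₂ : LaurentSeries (s18dVal A E))
    (hv₁ : s18vIncl (s18dVal A E) E v₁ ∈ modularFunctionFieldFullC E N)
    (hv₂ : s18vIncl (s18dVal A E) E v₂ ∈ modularFunctionFieldFullC E N) (hv₂0 : v₂ ≠ 0)
    (y : LaurentSeries E)
    (hy : y ^ p * s18vIncl (s18dVal A E) E v₂ = s18vIncl (s18dVal A E) E v₁)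
    (hdiv : ∀ (h₁ : s18dUp E (s18vIncl (s18dVal A E) E v₁) ∈ modularFunctionFieldBar N)
      (h₂ : s18dUp E (s18vIncl (s18dVal A E) E v₂) ∈ modularFunctionFieldBar N)
      (P : Place (AlgebraicClosure ℚ) (modularFunctionFieldBar N)),
      (p : ℤ) ∣ P.ord ⟨_, h₁⟩ - P.ord ⟨_, h₂⟩) :
    ∃ S S' : Finset (s18dVal A E),
      S18Chart (s18dVal A E) E ϖ
        (s18cLift (modularFunctionFieldFullC E (a * N)) y
          ⟨s18hq a (s18hExp a) E, s18h_mem E a ha23 (a * N) (dvd_mul_right a N)⟩) S ∧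
      S18Chart (s18dVal A E) E ϖ
        (s18cLift (modularFunctionFieldFullC E (a * N)) y
          ⟨s18hq a (s18hExp a) E, s18h_mem E a ha23 (a * N) (dvd_mul_right a N)⟩)⁻¹ S' :=
  s18rs_RH_small A E s18h_identity_two s18h_identity_three N hℓN hA a ha ha23 ϖ hϖ ζ hζ p hp hpℓ
    v₁ v₂ hv₁ hv₂ hv₂0 y hy hdiv (s18h_mem E a ha23 (a * N) (dvd_mul_right a N))

end Descent


/-! ### Assembly -/

section Assembly

variable (N : ℕ) [NeZero N] {ℓ : ℕ} [Fact ℓ.Prime]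
variable (A : ValuationSubring (AlgebraicClosure ℚ))

set_option maxHeartbeats 1000000 in
theorem s18_core_small_aux (hℓN : ¬ ℓ ∣ N) (hA : A.LiesOverPrime ℓ)
    (a : ℕ) [NeZero a] (ha : (ℓ = 2 ∧ a = 3) ∨ (ℓ = 3 ∧ a = 2))
    (p : ℕ) (hp : p.Prime) (hpℓ : p ≠ ℓ)
    (u₁ u₂ : LaurentSeries A) (h₁ : S18Good N A u₁) (h₂ : S18Good N A u₂)
    (hred : coeffMap (residue A) u₁ = coeffMap (residue A) u₂)
    (hne : coeffMap (residue A) u₁ ≠ 0)
    (hdiv : ∀ P : Place (AlgebraicClosure ℚ) (modularFunctionFieldBar N),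
      (p : ℤ) ∣ P.ord h₁.gen - P.ord h₂.gen) :
    ∃ g : modularFunctionFieldBar N, g ^ p * h₂.gen = h₁.gen := by
  have ha23 : a = 2 ∨ a = 3 := by rcases ha with ⟨-, h⟩ | ⟨-, h⟩ <;> simp [h]
  have hℓa : ¬ ℓ ∣ a := by
    rcases ha with ⟨h2, h3⟩ | ⟨h3, h2⟩
    · rw [h2, h3]; decide
    · rw [h3, h2]; decide
  have hℓM : ¬ ℓ ∣ a * N := fun h =>
    ((Nat.Prime.dvd_mul (Fact.out : ℓ.Prime)).mp h).elim hℓa hℓN
  haveI : NeZero (a * N) := ⟨Nat.mul_ne_zero (NeZero.ne a) (NeZero.ne N)⟩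
  have hNM : N ∣ a * N := dvd_mul_left N a
  have hne2 : coeffMap (residue A) u₂ ≠ 0 := hred ▸ hne
  have hu₁ : u₁ ≠ 0 := fun h => hne (by rw [h, map_zero])
  have hu₂ : u₂ ≠ 0 := fun h => hne2 (by rw [h, map_zero])
  have hinj : Function.Injective (coeffMap A.subtype) := by
    intro x y hxy
    ext k
    have := congrArg (fun s => HahnSeries.coeff s k) hxy
    simpa using this
  have hg₁ : h₁.gen ≠ 0 := fun h => hu₁ (hinj (by rw [map_zero]; exact congrArg Subtype.val h))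
  have hg₂ : h₂.gen ≠ 0 := fun h => hu₂ (hinj (by rw [map_zero]; exact congrArg Subtype.val h))
  obtain ⟨Pinf, hPinf⟩ := s18d_cusp_place N
  have hord : (p : ℤ) ∣ (coeffMap A.subtype u₁).order - (coeffMap A.subtype u₂).order := by
    have := hdiv Pinf
    rwa [hPinf _ hg₁, hPinf _ hg₂] at this
  have hn : 0 < 6 * (a * N) * p :=
    Nat.mul_pos (Nat.mul_pos (by norm_num) (NeZero.pos (a * N))) hp.pos
  obtain ⟨E, hfin, ζ, hζ, v₁, v₂, y, e₁, e₂, m₁, m₂, hy⟩ :=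
    s18d_descend A N (6 * (a * N) * p) hn p hp u₁ u₂ h₁ h₂ hu₂ hord
  haveI := hfin
  haveI : IsDiscreteValuationRing (s18dVal A E) := s18d_isDVR A E hA
  obtain ⟨ϖ, hϖ⟩ := IsDiscreteValuationRing.exists_irreducible (s18dVal A E)
  haveI : CharZero (s18dVal A E) := ⟨fun a b h => by
    have h1 := congrArg (fun x : s18dVal A E => (x : E)) h
    simpa using h1⟩
  have hζp : IsPrimitiveRoot (ζ ^ (6 * (a * N))) p := hζ.pow hn (by ring)
  have hζ6 : IsPrimitiveRoot (ζ ^ p) (6 * (a * N)) := hζ.pow hn (by ring)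
  have hv₂0 : v₂ ≠ 0 := fun h => hu₂ (by rw [← e₂, h, map_zero])
  have hℓmem := s18d_natCast_mem (ℓ := ℓ) A E hA
  have hpu : IsUnit ((p : ℕ) : s18dVal A E) := by
    have hcop : Nat.Coprime p ℓ := (Nat.coprime_primes hp Fact.out).mpr hpℓ
    obtain ⟨c, b, hab⟩ : ∃ c b : ℤ, c * p + b * ℓ = 1 := by
      have := Int.gcd_eq_gcd_ab p ℓ
      rw [Int.gcd_natCast_natCast, hcop.gcd_eq_one] at this
      exact ⟨Int.gcdA p ℓ, Int.gcdB p ℓ, by push_cast at this; linarith⟩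
    have h1 : ((c : s18dVal A E)) * (p : s18dVal A E) =
        1 - (b : s18dVal A E) * (ℓ : s18dVal A E) := by
      have := congrArg (Int.cast : ℤ → s18dVal A E) hab
      push_cast at this
      linear_combination this
    have h2 : IsUnit (1 - (b : s18dVal A E) * (ℓ : s18dVal A E)) := by
      by_contra hnu
      have h3 : (1 - (b : s18dVal A E) * (ℓ : s18dVal A E)) ∈ maximalIdeal (s18dVal A E) := hnu
      have h4 : (b : s18dVal A E) * (ℓ : s18dVal A E) ∈ maximalIdeal (s18dVal A E) :=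
        Ideal.mul_mem_left _ _ hℓmem
      have h5 := Ideal.add_mem _ h3 h4
      rw [sub_add_cancel] at h5
      exact (Ideal.ne_top_iff_one _).mp (maximalIdeal.isMaximal _).ne_top h5
    rw [← h1] at h2
    exact isUnit_of_mul_isUnit_right h2
  have hredv : s18vRes (s18dVal A E) v₁ = s18vRes (s18dVal A E) v₂ := by
    rw [s18d_res_eq_iff, e₁, e₂]; exact hred
  have hnev : s18vRes (s18dVal A E) v₁ ≠ 0 := by
    intro h0
    have := (s18d_res_eq_iff A E v₁ 0).mp (by rw [h0, map_zero])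
    rw [e₁, map_zero, map_zero] at this
    exact hne this
  -- level `M = a N`
  have hle : modularFunctionFieldFullC E N ≤ modularFunctionFieldFullC E (a * N) :=
    full_degeneracyC_le E hNM
  obtain ⟨S, S', h0, hinf⟩ := s18_RH_small A E N hℓN hA a ha ha23 ϖ hϖ (ζ ^ p) hζ6 p hp hpℓ
    v₁ v₂ m₁ m₂ hv₂0 y hy
    (by
      intro k₁ k₂ P
      have q₁ : (⟨_, k₁⟩ : modularFunctionFieldBar N) = h₁.gen :=
        Subtype.ext (by
          show s18dUp E (s18vIncl (s18dVal A E) E v₁) = coeffMap A.subtype u₁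
          rw [s18d_up_incl, e₁])
      have q₂ : (⟨_, k₂⟩ : modularFunctionFieldBar N) = h₂.gen :=
        Subtype.ext (by
          show s18dUp E (s18vIncl (s18dVal A E) E v₂) = coeffMap A.subtype u₂
          rw [s18d_up_incl, e₂])
      rw [q₁, q₂]
      exact hdiv P)
  have hcoordh := s18h_coord (L₀ := E) hϖ hℓmem a ha23 (a * N) (dvd_mul_right a N) hℓM
  have hyM := s18c_numberfield hϖ _ _ hcoordh p hp hpu (ζ ^ (6 * (a * N))) hζp v₁ v₂
    (hle m₁) (hle m₂) hredv hnev y hy S S' h0 hinf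
  -- descent of the level
  have hc₁ := s18v_coord_j (L₀ := E) hϖ hℓmem N hℓN
  have hc₂ := s18v_coord_j (L₀ := E) hϖ hℓmem (a * N) hℓM
  have hyF := s18c_level_descent hϖ _ _ hle ⟨jqModC E, jqModC_mem_full E N⟩ hc₁ hc₂ p hp hpu
    (ζ ^ (6 * (a * N))) hζp v₁ v₂ m₁ m₂ hredv hnev y hy hyM
  refine ⟨⟨s18dUp E y, s18d_up_mem E N y hyF⟩, Subtype.ext ?_⟩
  show s18dUp E y ^ p * coeffMap A.subtype u₂ = coeffMap A.subtype u₁
  have := congrArg (s18dUp E) hy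
  rw [map_mul, map_pow, s18d_up_incl, s18d_up_incl, e₁, e₂] at this
  exact this

/-- `ℓ ∈ {2, 3}`. -/
theorem s18_core_small' (hℓN : ¬ ℓ ∣ N) (hA : A.LiesOverPrime ℓ) (hℓ : ℓ < 5)
    (p : ℕ) (hp : p.Prime) (hpℓ : p ≠ ℓ)
    (u₁ u₂ : LaurentSeries A) (h₁ : S18Good N A u₁) (h₂ : S18Good N A u₂)
    (hred : coeffMap (residue A) u₁ = coeffMap (residue A) u₂)
    (hne : coeffMap (residue A) u₁ ≠ 0)
    (hdiv : ∀ P : Place (AlgebraicClosure ℚ) (modularFunctionFieldBar N),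
      (p : ℤ) ∣ P.ord h₁.gen - P.ord h₂.gen) :
    ∃ g : modularFunctionFieldBar N, g ^ p * h₂.gen = h₁.gen := by
  have hℓp : ℓ.Prime := Fact.out
  have h23 : ℓ = 2 ∨ ℓ = 3 := by
    have h2 := hℓp.two_le
    interval_cases ℓ
    · left; rfl
    · right; rfl
    · exact absurd hℓp (by decide)
  rcases h23 with h2 | h3
  · haveI : NeZero 3 := ⟨by norm_num⟩
    exact s18_core_small_aux N A hℓN hA 3 (Or.inl ⟨h2, rfl⟩) p hp hpℓ u₁ u₂ h₁ h₂ hred hne hdiv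
  · haveI : NeZero 2 := ⟨by norm_num⟩
    exact s18_core_small_aux N A hℓN hA 2 (Or.inr ⟨h3, rfl⟩) p hp hpℓ u₁ u₂ h₁ h₂ hred hne hdiv

end Assembly

end Fermat.Agent.S18
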