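import Mathlib
import Fermat.Agent.S18.Core.Spec
import Fermat.Agent.S18.Core.Small

/-!
# S18 : THE CORE CLAIM `s18_core_main` (case split `ℓ ≥ 5` / `ℓ ∈ {2, 3}`)
-/

set_option autoImplicit false
set_option linter.unusedSectionVars false
set_option synthInstance.maxHeartbeats 400000

noncomputable section

namespace Fermat.Agent.S18

open ModularCurve AlgebraicCurve IsLocalRing

variable (N : ℕ) [NeZero N] {ℓ : ℕ} [Fact ℓ.Prime]
variable (A : ValuationSubring (AlgebraicClosure ℚ))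

/-- THE CORE CLAIM. -/
theorem s18_core_main (hℓN : ¬ ℓ ∣ N) (hA : A.LiesOverPrime ℓ) (p : ℕ) (hp : p.Prime) (hpℓ : p ≠ ℓ)
    (u₁ u₂ : LaurentSeries A) (h₁ : S18Good N A u₁) (h₂ : S18Good N A u₂)
    (hred : coeffMap (residue A) u₁ = coeffMap (residue A) u₂)
    (hne : coeffMap (residue A) u₁ ≠ 0)
    (hdiv : ∀ P : Place (AlgebraicClosure ℚ) (modularFunctionFieldBar N),
      (p : ℤ) ∣ P.ord h₁.gen - P.ord h₂.gen) :
    ∃ g : modularFunctionFieldBar N, g ^ p * h₂.gen = h₁.gen := by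
  rcases lt_or_ge ℓ 5 with hℓ | hℓ
  · exact s18_core_small' N A hℓN hA hℓ p hp hpℓ u₁ u₂ h₁ h₂ hred hne hdiv
  · exact s18_core_large N A hℓN hA hℓ p hp hpℓ u₁ u₂ h₁ h₂ hred hne hdiv

end Fermat.Agent.S18
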